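/-
C3-ET support (P-S44/S40): the order function of a prime element `u` of a domain `R` with finite
multiplicities (UFD, Noetherian domain) on the fraction field, in the `IsOrd` vocabulary of the
landed `R2/Transitive.lean`; uniqueness; compatibility under a contraction-preserving extension
(`e = 1`).  These are the hypotheses `hwinf, hinf_u, hinf_0` of `Asm.node_slope_eq` and
`hWinf, hvinf` of `Asm.c3_core_pair`.
-/
import Mathlib
import Fermat.Agent.S40x.R2.Transitive

namespace Fermat.Agent.S40x.R2.NodeCover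

open Fermat.Agent.S40x.R2.Transitive

section PrimeOrd

variable {R : Type*} [CommRing R] [IsDomain R] [WfDvdMonoid R]
variable {K : Type*} [Field K] [Algebra R K] [IsFractionRing R K]

/-- The `u`-adic order of `x = a / b`: `multiplicity u a - multiplicity u b` (computed on the
fraction chosen by `IsLocalization.sec`; see `primeOrd_eq`). -/
noncomputable def primeOrd (u : R) (x : K) : ℤ :=
  (multiplicity u (IsLocalization.sec (nonZeroDivisors R) x).1 : ℤ) -
    multiplicity u ((IsLocalization.sec (nonZeroDivisors R) x).2 : R)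

omit [WfDvdMonoid R] [IsDomain R] in
private theorem algebraMap_ne_zero' {r : R} (hr : r ≠ 0) : algebraMap R K r ≠ 0 := fun h =>
  hr (IsFractionRing.injective R K (by rw [h, map_zero]))

/-- `primeOrd` does not depend on the fraction. -/
theorem primeOrd_eq {u : R} (hu : Prime u) {x : K} {a b : R} (ha : a ≠ 0) (hb : b ≠ 0)
    (h : x * algebraMap R K b = algebraMap R K a) :
    primeOrd u x = (multiplicity u a : ℤ) - multiplicity u b := by
  have hx : x ≠ 0 := by
    rintro rfl
    rw [zero_mul] at h
    exact algebraMap_ne_zero' ha h.symm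
  set a0 := (IsLocalization.sec (nonZeroDivisors R) x).1 with ha0
  set b0 : R := ((IsLocalization.sec (nonZeroDivisors R) x).2 : R) with hb0
  have hspec : x * algebraMap R K b0 = algebraMap R K a0 :=
    IsLocalization.sec_spec (nonZeroDivisors R) x
  have hb0ne : b0 ≠ 0 := nonZeroDivisors.ne_zero (IsLocalization.sec (nonZeroDivisors R) x).2.2
  have ha0ne : a0 ≠ 0 := by
    intro h0
    rw [h0, map_zero] at hspec
    rcases mul_eq_zero.mp hspec with h1 | h1
    · exact hx h1
    · exact algebraMap_ne_zero' hb0ne h1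
  have hcross : a * b0 = a0 * b := by
    apply IsFractionRing.injective R K
    rw [map_mul, map_mul, ← h, ← hspec]
    ring
  have h1 := multiplicity_mul hu (FiniteMultiplicity.of_prime_left hu (mul_ne_zero ha hb0ne))
  have h2 := multiplicity_mul hu (FiniteMultiplicity.of_prime_left hu (mul_ne_zero ha0ne hb))
  rw [hcross] at h1
  have h3 : (multiplicity u a : ℤ) + multiplicity u b0 = multiplicity u a0 + multiplicity u b := by
    exact_mod_cast h1.symm.trans h2
  change (multiplicity u a0 : ℤ) - multiplicity u b0 = _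
  linarith

theorem primeOrd_algebraMap {u : R} (hu : Prime u) {r : R} (hr : r ≠ 0) :
    primeOrd u (algebraMap R K r) = multiplicity u r := by
  rw [primeOrd_eq hu hr one_ne_zero (by rw [map_one, mul_one]),
    multiplicity_of_one_right hu.not_isUnit]
  simp

theorem primeOrd_algebraMap_self {u : R} (hu : Prime u) : primeOrd u (algebraMap R K u) = 1 := by
  rw [primeOrd_algebraMap hu hu.ne_zero, multiplicity_self]
  simp

theorem primeOrd_algebraMap_of_not_dvd {u : R} (hu : Prime u) {r : R} (hr : ¬ u ∣ r) :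
    primeOrd u (algebraMap R K r) = 0 := by
  have hr0 : r ≠ 0 := by rintro rfl; exact hr (dvd_zero u)
  rw [primeOrd_algebraMap hu hr0, multiplicity_eq_zero.mpr hr]
  simp

omit [WfDvdMonoid R] in
/-- every nonzero element of `K` is a fraction of nonzero elements -/
private theorem exists_frac {x : K} (hx : x ≠ 0) :
    ∃ a b : R, a ≠ 0 ∧ b ≠ 0 ∧ x * algebraMap R K b = algebraMap R K a := by
  obtain ⟨a, b, hb, rfl⟩ := IsFractionRing.div_surjective (A := R) x
  have hb0 : b ≠ 0 := nonZeroDivisors.ne_zero hb
  refine ⟨a, b, ?_, hb0, div_mul_cancel₀ _ (algebraMap_ne_zero' hb0)⟩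
  rintro rfl
  simp at hx

theorem primeOrd_mul {u : R} (hu : Prime u) {x y : K} (hx : x ≠ 0) (hy : y ≠ 0) :
    primeOrd u (x * y) = primeOrd u x + primeOrd u y := by
  obtain ⟨a, b, ha, hb, hab⟩ := exists_frac (R := R) hx
  obtain ⟨c, d, hc, hd, hcd⟩ := exists_frac (R := R) hy
  have h1 : x * y * algebraMap R K (b * d) = algebraMap R K (a * c) := by
    rw [map_mul, map_mul, ← hab, ← hcd]; ring
  rw [primeOrd_eq hu (mul_ne_zero ha hc) (mul_ne_zero hb hd) h1, primeOrd_eq hu ha hb hab,
    primeOrd_eq hu hc hd hcd,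
    multiplicity_mul hu (FiniteMultiplicity.of_prime_left hu (mul_ne_zero ha hc)),
    multiplicity_mul hu (FiniteMultiplicity.of_prime_left hu (mul_ne_zero hb hd))]
  push_cast
  ring

/-- the non-negative part of `primeOrd u` = fractions with denominator prime to `u` -/
theorem primeOrd_nonneg_iff {u : R} (hu : Prime u) {x : K} (hx : x ≠ 0) :
    0 ≤ primeOrd u x ↔ ∃ a b : R, ¬ u ∣ b ∧ x * algebraMap R K b = algebraMap R K a := by
  constructor
  · intro h
    obtain ⟨a, b, ha, hb, hab⟩ := exists_frac (R := R) hx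
    rw [primeOrd_eq hu ha hb hab] at h
    obtain ⟨b1, hb1, hub1⟩ :=
      (FiniteMultiplicity.of_prime_left hu hb).exists_eq_pow_mul_and_not_dvd
    have hle : multiplicity u b ≤ multiplicity u a := by exact_mod_cast sub_nonneg.mp h
    obtain ⟨a1, ha1⟩ := pow_dvd_of_le_multiplicity hle
    generalize multiplicity u b = n at hb1 ha1
    refine ⟨a1, b1, hub1, ?_⟩
    have hun : algebraMap R K (u ^ n) ≠ 0 := algebraMap_ne_zero' (pow_ne_zero _ hu.ne_zero)
    apply mul_left_cancel₀ hun
    rw [hb1, ha1, map_mul, map_mul] at hab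
    rw [← hab]
    ring
  · rintro ⟨a, b, hub, hab⟩
    have hb : b ≠ 0 := by rintro rfl; exact hub (dvd_zero u)
    have ha : a ≠ 0 := by
      rintro rfl
      rw [map_zero] at hab
      rcases mul_eq_zero.mp hab with h1 | h1
      · exact hx h1
      · exact algebraMap_ne_zero' hb h1
    rw [primeOrd_eq hu ha hb hab, multiplicity_eq_zero.mpr hub]
    simp

theorem primeOrd_inv {u : R} (hu : Prime u) {x : K} (hx : x ≠ 0) :
    primeOrd u x⁻¹ = - primeOrd u x := by
  have h1 := primeOrd_mul hu hx (inv_ne_zero hx)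
  rw [mul_inv_cancel₀ hx] at h1
  have h2 : primeOrd u (1 : K) = 0 := by
    have := primeOrd_algebraMap_of_not_dvd (K := K) hu
      (fun h => hu.not_isUnit (isUnit_of_dvd_one h) : ¬ u ∣ (1 : R))
    rwa [map_one] at this
  linarith

/-- The valuation subring of `K` attached to the prime `u`: fractions with denominator prime to
`u` (the localisation of `R` at `(u)`). -/
def primeValuationSubring {u : R} (hu : Prime u) : ValuationSubring K where
  carrier := {x | ∃ a b : R, ¬ u ∣ b ∧ x * algebraMap R K b = algebraMap R K a}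
  mul_mem' := by
    rintro x y ⟨a, b, hb, hab⟩ ⟨c, d, hd, hcd⟩
    refine ⟨a * c, b * d, fun h => (hu.dvd_or_dvd h).elim hb hd, ?_⟩
    rw [map_mul, map_mul, ← hab, ← hcd]; ring
  one_mem' := ⟨1, 1, fun h => hu.not_isUnit (isUnit_of_dvd_one h), by simp⟩
  add_mem' := by
    rintro x y ⟨a, b, hb, hab⟩ ⟨c, d, hd, hcd⟩
    refine ⟨a * d + c * b, b * d, fun h => (hu.dvd_or_dvd h).elim hb hd, ?_⟩
    rw [map_add, map_mul, map_mul, map_mul, ← hab, ← hcd]; ring
  zero_mem' := ⟨0, 1, fun h => hu.not_isUnit (isUnit_of_dvd_one h), by simp⟩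
  neg_mem' := by
    rintro x ⟨a, b, hb, hab⟩
    exact ⟨-a, b, hb, by rw [map_neg, ← hab]; ring⟩
  mem_or_inv_mem' := by
    intro x
    by_cases hx : x = 0
    · left
      exact ⟨0, 1, fun h => hu.not_isUnit (isUnit_of_dvd_one h), by simp [hx]⟩
    · rcases le_total 0 (primeOrd u x) with h | h
      · left
        exact (primeOrd_nonneg_iff hu hx).1 h
      · right
        refine (primeOrd_nonneg_iff hu (inv_ne_zero hx)).1 ?_
        rw [primeOrd_inv hu hx]
        linarith

theorem mem_primeValuationSubring_iff {u : R} (hu : Prime u) {x : K} :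
    x ∈ primeValuationSubring (K := K) hu ↔
      ∃ a b : R, ¬ u ∣ b ∧ x * algebraMap R K b = algebraMap R K a := Iff.rfl

/-- `primeOrd u` is an order function (in the sense of `Transitive.IsOrd`) of
`primeValuationSubring u`. -/
theorem isOrd_primeOrd {u : R} (hu : Prime u) :
    IsOrd (primeValuationSubring (K := K) hu) (primeOrd u) :=
  ⟨fun _ _ hx hy => primeOrd_mul hu hx hy, fun _ hx => primeOrd_nonneg_iff hu hx⟩

/-- UNIQUENESS: an order function with `w u = 1` and `w r = 0` for `u ∤ r` is `primeOrd u`. -/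
theorem IsOrd_eq_primeOrd {u : R} (hu : Prime u) {W : ValuationSubring K} {w : K → ℤ}
    (hw : IsOrd W w) (hwu : w (algebraMap R K u) = 1)
    (hw0 : ∀ r : R, ¬ u ∣ r → w (algebraMap R K r) = 0) {x : K} (hx : x ≠ 0) :
    w x = primeOrd u x := by
  have huK : algebraMap R K u ≠ 0 := algebraMap_ne_zero' hu.ne_zero
  -- value on elements of `R`
  have hR : ∀ r : R, r ≠ 0 → w (algebraMap R K r) = multiplicity u r := by
    intro r hr
    obtain ⟨r1, hr1, hur1⟩ :=
      (FiniteMultiplicity.of_prime_left hu hr).exists_eq_pow_mul_and_not_dvd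
    have hr10 : r1 ≠ 0 := by rintro rfl; exact hur1 (dvd_zero u)
    conv_lhs => rw [hr1]
    rw [map_mul, map_pow, hw.map_mul (pow_ne_zero _ huK) (algebraMap_ne_zero' hr10),
      hw.map_pow huK, hwu, hw0 r1 hur1]
    ring
  obtain ⟨a, b, ha, hb, hab⟩ := exists_frac (R := R) hx
  rw [primeOrd_eq hu ha hb hab, ← hR a ha, ← hR b hb, ← hab,
    hw.map_mul hx (algebraMap_ne_zero' hb)]
  ring

/-- UNIQUENESS of the valuation subring. -/
theorem IsOrd_eq_primeValuationSubring {u : R} (hu : Prime u) {W : ValuationSubring K}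
    {w : K → ℤ} (hw : IsOrd W w) (hwu : w (algebraMap R K u) = 1)
    (hw0 : ∀ r : R, ¬ u ∣ r → w (algebraMap R K r) = 0) :
    W = primeValuationSubring (K := K) hu := by
  ext x
  by_cases hx : x = 0
  · subst hx
    exact ⟨fun _ => zero_mem _, fun _ => zero_mem _⟩
  · rw [← hw.nonneg_iff hx, ← (isOrd_primeOrd (K := K) hu).nonneg_iff hx,
      IsOrd_eq_primeOrd hu hw hwu hw0 hx]

end PrimeOrd

section Compat

variable {R : Type*} [CommRing R] [IsDomain R] [WfDvdMonoid R]
variable {K : Type*} [Field K] [Algebra R K] [IsFractionRing R K]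
variable {S : Type*} [CommRing S] [IsDomain S] [WfDvdMonoid S]
variable {L : Type*} [Field L] [Algebra S L] [IsFractionRing S L]
variable [Algebra R S] [Algebra K L] [Algebra R L] [IsScalarTower R S L] [IsScalarTower R K L]

omit [IsDomain S] [WfDvdMonoid S] in
/-- multiplicities are unchanged under an extension with the contraction property
`u^n S ∩ R = u^n R`. -/
theorem multiplicity_algebraMap_eq {u : R} (hu : Prime u)
    (hcontr : ∀ (n : ℕ) (r : R), algebraMap R S u ^ n ∣ algebraMap R S r → u ^ n ∣ r)
    {r : R} (hr : r ≠ 0) :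
    multiplicity (algebraMap R S u) (algebraMap R S r) = multiplicity u r := by
  have hfin := FiniteMultiplicity.of_prime_left hu hr
  apply multiplicity_eq_of_dvd_of_not_dvd
  · rw [← map_pow]; exact map_dvd _ (pow_multiplicity_dvd u r)
  · intro h
    exact hfin.not_pow_dvd_of_multiplicity_lt (Nat.lt_succ_self _) (hcontr _ _ h)

omit [IsDomain R] [WfDvdMonoid R] [IsDomain S] [WfDvdMonoid S] [IsFractionRing S L] in
variable (K L) in
include K L in
theorem algebraMap_injective_of_tower : Function.Injective (algebraMap R S) := by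
  intro r r' h
  apply IsFractionRing.injective R K
  apply (algebraMap K L).injective
  rw [← IsScalarTower.algebraMap_apply R K L, ← IsScalarTower.algebraMap_apply R K L,
    IsScalarTower.algebraMap_apply R S L, h, ← IsScalarTower.algebraMap_apply R S L]

/-- `e = 1`: the `ι u`-adic order of `L = Frac S` restricts to the `u`-adic order of
`K = Frac R`. -/
theorem primeOrd_algebraMap_field {u : R} (hu : Prime u) (hu' : Prime (algebraMap R S u))
    (hcontr : ∀ (n : ℕ) (r : R), algebraMap R S u ^ n ∣ algebraMap R S r → u ^ n ∣ r)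
    {x : K} (hx : x ≠ 0) :
    primeOrd (algebraMap R S u) (algebraMap K L x) = primeOrd u x := by
  obtain ⟨a, b, ha, hb, hab⟩ := exists_frac (R := R) hx
  have hinj : Function.Injective (algebraMap R S) :=
    algebraMap_injective_of_tower K L
  have ha' : algebraMap R S a ≠ 0 := fun h => ha (hinj (by rw [h, map_zero]))
  have hb' : algebraMap R S b ≠ 0 := fun h => hb (hinj (by rw [h, map_zero]))
  have hab' : algebraMap K L x * algebraMap S L (algebraMap R S b) =
      algebraMap S L (algebraMap R S a) := by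
    rw [← IsScalarTower.algebraMap_apply R S L, ← IsScalarTower.algebraMap_apply R S L,
      IsScalarTower.algebraMap_apply R K L, IsScalarTower.algebraMap_apply R K L, ← map_mul, hab]
  rw [primeOrd_eq hu' ha' hb' hab', primeOrd_eq hu ha hb hab,
    multiplicity_algebraMap_eq hu hcontr ha, multiplicity_algebraMap_eq hu hcontr hb]

/-- **[ET] order package** (board `S44_C3_ASM`): downstairs an order function `(O, v)` of
`K = Frac R` which is `u`-adic on `R` (`v u = 1`, `v r = 0` for `u ∤ r`); upstairs `S ⊇ R` with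
`ι u` prime and `u^n S ∩ R = u^n R`.  Then `(W, w) := (primeValuationSubring (ι u), primeOrd (ι u))`
satisfies `hwinf, hinf_u, hinf_0` of `Asm.node_slope_eq` and `hWinf, hvinf` of
`Asm.c3_core_pair`. -/
theorem primeOrd_lift_package {u : R} (hu : Prime u) (hu' : Prime (algebraMap R S u))
    (hcontr : ∀ (n : ℕ) (r : R), algebraMap R S u ^ n ∣ algebraMap R S r → u ^ n ∣ r)
    {O : ValuationSubring K} {v : K → ℤ} (hv : IsOrd O v) (hvu : v (algebraMap R K u) = 1)
    (hv0 : ∀ r : R, ¬ u ∣ r → v (algebraMap R K r) = 0) :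
    IsOrd (primeValuationSubring (K := L) hu') (primeOrd (algebraMap R S u)) ∧
    primeOrd (algebraMap R S u) (algebraMap S L (algebraMap R S u)) = 1 ∧
    (∀ s : S, ¬ algebraMap R S u ∣ s → primeOrd (algebraMap R S u) (algebraMap S L s) = 0) ∧
    (∀ e : K, algebraMap K L e ∈ primeValuationSubring (K := L) hu' ↔ e ∈ O) ∧
    (∀ e : K, e ≠ 0 → primeOrd (algebraMap R S u) (algebraMap K L e) = v e) := by
  have hve : ∀ e : K, e ≠ 0 → primeOrd (algebraMap R S u) (algebraMap K L e) = v e := by
    intro e he
    rw [primeOrd_algebraMap_field hu hu' hcontr he, IsOrd_eq_primeOrd hu hv hvu hv0 he]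
  refine ⟨isOrd_primeOrd hu', primeOrd_algebraMap_self hu',
    fun s hs => primeOrd_algebraMap_of_not_dvd hu' hs, fun e => ?_, hve⟩
  by_cases he : e = 0
  · subst he
    rw [map_zero]
    exact ⟨fun _ => zero_mem _, fun _ => zero_mem _⟩
  · have he' : algebraMap K L e ≠ 0 := fun h => he ((algebraMap K L).injective (by rw [h, map_zero]))
    rw [← (isOrd_primeOrd (K := L) hu').nonneg_iff he', hve e he, hv.nonneg_iff he]

end Compat

end Fermat.Agent.S40x.R2.NodeCover
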