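/-
C3-ET (P-S44/S40): the [ET] bundle of board `S44_C3_ASM` on top of helper4's `NodeRing/Main`
and of `PrimeOrd`: at a root `c` of `minpoly R θ₀` modulo `m_R`, the node ring
`R* = Embed.Rstar hint hc ⊆ E0` with its two prime-adic order functions, in the binder shapes of
`R2/Asm/Core.lean` (`node_slope_eq`, `c3_core_pair`).
-/
import Mathlib
import Fermat.Agent.S40x.NodeRing.Main
import Fermat.Agent.S40x.R2.NodeCover.PrimeOrd
import Fermat.Agent.S40x.R2.Asm.Core

set_option linter.style.haveILetI false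
set_option linter.unusedSectionVars false

namespace Fermat.Agent.S40x.R2.NodeCover

open Fermat.Agent.S40x.NodeRing Fermat.Agent.S40x.R2.Transitive IsLocalRing Polynomial

section Bundle

variable {R : Type*} [CommRing R] [IsDomain R] [IsLocalRing R] [IsNoetherianRing R]
  [IsIntegrallyClosed R]
variable {E0 : Type*} [Field E0] [Algebra R E0] [FaithfulSMul R E0]
variable {θ₀ : E0} {c : R}

/-- contraction, divisibility form: `ι a ∣ ι r → a ∣ r`. -/
theorem dvd_of_inclStar_dvd (hint : IsIntegral R θ₀)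
    (hc : (minpoly R θ₀).eval c ∈ maximalIdeal R) {a r : R}
    (h : Embed.inclStar hint hc a ∣ Embed.inclStar hint hc r) : a ∣ r := by
  have h1 := Embed.comap_map_inclStar hint hc (Ideal.span {a})
  rw [← Ideal.mem_span_singleton, ← h1, Ideal.mem_comap, Ideal.map_span, Set.image_singleton,
    Ideal.mem_span_singleton]
  exact h

/-- the two branch parameters stay prime and non-associated in `R*`. -/
theorem inclStar_prime_facts (hint : IsIntegral R θ₀)
    (hc : (minpoly R θ₀).eval c ∈ maximalIdeal R)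
    (hc' : IsUnit ((minpoly R θ₀).derivative.eval c)) {u u' : R} (h : IsNode u u') :
    Prime (Embed.inclStar hint hc u) ∧ Prime (Embed.inclStar hint hc u') ∧
      ¬ Embed.inclStar hint hc u ∣ Embed.inclStar hint hc u' ∧
      ¬ Embed.inclStar hint hc u' ∣ Embed.inclStar hint hc u := by
  have hn := Embed.isNode_Rstar hint hc hc' h
  exact ⟨hn.prime_z, hn.prime_z', hn.not_dvd, hn.not_dvd'⟩

/-- **[ET] bundle at a node** (board `S44_C3_ASM`).  Downstairs: the node ring `R` with fraction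
field `F0` and the two order functions `(Oinf, vinf)`, `(Ozero, vzero)` of `F0` which are `u`-adic
resp. `u'`-adic on `R`.  Upstairs: `R* = Embed.Rstar hint hc ⊆ E0` at a simple root `c`, with
fraction field `E0`.  Output: `R*` is a UFD, `ι u`, `ι u'` are non-associated primes, and the
`ι u`-adic / `ι u'`-adic order functions of `E0` satisfy `hwinf, hinf_u, hinf_0, hzero_u', hzero_0`
of `Asm.node_slope_eq` and `hWinf, hWzero, hvinf, hvzero` of `Asm.c3_core_pair`. -/
theorem et_node_bundle {F0 : Type*} [Field F0] [Algebra R F0] [IsFractionRing R F0]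
    [Algebra F0 E0] [IsScalarTower R F0 E0]
    (hint : IsIntegral R θ₀) (hc : (minpoly R θ₀).eval c ∈ maximalIdeal R)
    (hc' : IsUnit ((minpoly R θ₀).derivative.eval c))
    [IsFractionRing (Embed.Rstar hint hc) E0]
    {u u' : R} (h : IsNode u u')
    {Oinf Ozero : ValuationSubring F0} {vinf vzero : F0 → ℤ}
    (hvinf : IsOrd Oinf vinf) (hvinf_u : vinf (algebraMap R F0 u) = 1)
    (hvinf_0 : ∀ r : R, ¬ u ∣ r → vinf (algebraMap R F0 r) = 0)
    (hvzero : IsOrd Ozero vzero) (hvzero_u' : vzero (algebraMap R F0 u') = 1)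
    (hvzero_0 : ∀ r : R, ¬ u' ∣ r → vzero (algebraMap R F0 r) = 0) :
    ∃ (_ : UniqueFactorizationMonoid (Embed.Rstar hint hc)),
      Prime (Embed.inclStar hint hc u) ∧ Prime (Embed.inclStar hint hc u') ∧
      ¬ Embed.inclStar hint hc u ∣ Embed.inclStar hint hc u' ∧
      ¬ Embed.inclStar hint hc u' ∣ Embed.inclStar hint hc u ∧
      ∃ (Winf Wzero : ValuationSubring E0) (winf wzero : E0 → ℤ),
        IsOrd Winf winf ∧ IsOrd Wzero wzero ∧
        winf (algebraMap (Embed.Rstar hint hc) E0 (Embed.inclStar hint hc u)) = 1 ∧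
        (∀ r : Embed.Rstar hint hc, ¬ Embed.inclStar hint hc u ∣ r →
          winf (algebraMap (Embed.Rstar hint hc) E0 r) = 0) ∧
        wzero (algebraMap (Embed.Rstar hint hc) E0 (Embed.inclStar hint hc u')) = 1 ∧
        (∀ r : Embed.Rstar hint hc, ¬ Embed.inclStar hint hc u' ∣ r →
          wzero (algebraMap (Embed.Rstar hint hc) E0 r) = 0) ∧
        (∀ e : F0, algebraMap F0 E0 e ∈ Winf ↔ e ∈ Oinf) ∧
        (∀ e : F0, algebraMap F0 E0 e ∈ Wzero ↔ e ∈ Ozero) ∧
        (∀ e : F0, e ≠ 0 → winf (algebraMap F0 E0 e) = vinf e) ∧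
        (∀ e : F0, e ≠ 0 → wzero (algebraMap F0 E0 e) = vzero e) := by
  have hn := Embed.isNode_Rstar hint hc hc' h
  obtain ⟨hpu, hpu', hnd, hnd'⟩ := inclStar_prime_facts hint hc hc' h
  letI : Algebra R (Embed.Rstar hint hc) := (Embed.inclStar hint hc).toAlgebra
  haveI : IsScalarTower R (Embed.Rstar hint hc) E0 :=
    IsScalarTower.of_algebraMap_eq fun r => (Embed.coe_inclStar hint hc r).symm
  have hcontr : ∀ (a : R) (n : ℕ) (r : R),
      algebraMap R (Embed.Rstar hint hc) a ^ n ∣ algebraMap R (Embed.Rstar hint hc) r →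
        a ^ n ∣ r := by
    intro a n r hd
    apply dvd_of_inclStar_dvd hint hc
    rw [map_pow]
    exact hd
  obtain ⟨i1, i2, i3, i4, i5⟩ := primeOrd_lift_package (S := Embed.Rstar hint hc) (L := E0)
    h.prime_z hpu (hcontr u) hvinf hvinf_u hvinf_0
  obtain ⟨z1, z2, z3, z4, z5⟩ := primeOrd_lift_package (S := Embed.Rstar hint hc) (L := E0)
    h.prime_z' hpu' (hcontr u') hvzero hvzero_u' hvzero_0
  exact ⟨hn.ufd, hpu, hpu', hnd, hnd', _, _, _, _, i1, z1, i2, i3, z2, z3, i4, z4, i5, z5⟩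

/-- **[ET] + `Asm.node_slope_eq` in one call**: the per-node block of hypotheses of
`Asm.c3_core_pair` (`hWinf hWzero hwinf hwzero hvinf hvzero n hn`) from the downstairs order
functions, the horizontal divisibility `H` (C3-CFE) and the slope rule `hsl` (C3-SLOPE), both stated
on `R* = Embed.Rstar hint hc` with the primes `ι u`, `ι u'`. -/
theorem et_node_slope {F0 : Type*} [Field F0] [Algebra R F0] [IsFractionRing R F0]
    [Algebra F0 E0] [IsScalarTower R F0 E0]
    (hint : IsIntegral R θ₀) (hc : (minpoly R θ₀).eval c ∈ maximalIdeal R)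
    (hc' : IsUnit ((minpoly R θ₀).derivative.eval c))
    [IsFractionRing (Embed.Rstar hint hc) E0]
    {u u' : R} (h : IsNode u u')
    {Oinf Ozero : ValuationSubring F0} {vinf vzero : F0 → ℤ}
    (hvinf : IsOrd Oinf vinf) (hvinf_u : vinf (algebraMap R F0 u) = 1)
    (hvinf_0 : ∀ r : R, ¬ u ∣ r → vinf (algebraMap R F0 r) = 0)
    (hvzero : IsOrd Ozero vzero) (hvzero_u' : vzero (algebraMap R F0 u') = 1)
    (hvzero_0 : ∀ r : R, ¬ u' ∣ r → vzero (algebraMap R F0 r) = 0)
    {p : ℕ} (hp : p ≠ 0) {ft : E0} (hft : ft ≠ 0)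
    (H : ∀ q : Embed.Rstar hint hc, Prime q → ¬ Associated q (Embed.inclStar hint hc u) →
      ¬ Associated q (Embed.inclStar hint hc u') →
      ∀ f1 f2 : Embed.Rstar hint hc, f2 ≠ 0 →
        ft * algebraMap (Embed.Rstar hint hc) E0 f2 = algebraMap (Embed.Rstar hint hc) E0 f1 →
      ∀ n1 n2 : ℕ, q ^ n1 ∣ f1 → ¬ q ^ (n1 + 1) ∣ f1 → q ^ n2 ∣ f2 → ¬ q ^ (n2 + 1) ∣ f2 →
        (p : ℤ) ∣ (n1 : ℤ) - n2)
    (n : ZMod p)
    (hsl : ∀ (A B : ℤ) (ε : (Embed.Rstar hint hc)ˣ) (g1 g2 : Embed.Rstar hint hc),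
      ¬ Embed.inclStar hint hc u ∣ g1 → ¬ Embed.inclStar hint hc u' ∣ g1 →
      ¬ Embed.inclStar hint hc u ∣ g2 → ¬ Embed.inclStar hint hc u' ∣ g2 →
      ft = algebraMap (Embed.Rstar hint hc) E0 ε *
          algebraMap (Embed.Rstar hint hc) E0 (Embed.inclStar hint hc u) ^ A *
          algebraMap (Embed.Rstar hint hc) E0 (Embed.inclStar hint hc u') ^ B *
          (algebraMap (Embed.Rstar hint hc) E0 g1 / algebraMap (Embed.Rstar hint hc) E0 g2) ^ p →
        n = ((B - A : ℤ) : ZMod p)) :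
    ∃ (Winf Wzero : ValuationSubring E0) (winf wzero : E0 → ℤ),
      (∀ e : F0, algebraMap F0 E0 e ∈ Winf ↔ e ∈ Oinf) ∧
      (∀ e : F0, algebraMap F0 E0 e ∈ Wzero ↔ e ∈ Ozero) ∧
      IsOrd Winf winf ∧ IsOrd Wzero wzero ∧
      (∀ e : F0, e ≠ 0 → winf (algebraMap F0 E0 e) = vinf e) ∧
      (∀ e : F0, e ≠ 0 → wzero (algebraMap F0 E0 e) = vzero e) ∧
      n = ((wzero ft - winf ft : ℤ) : ZMod p) := by
  obtain ⟨hufd, hpu, hpu', hnd, hnd', Winf, Wzero, winf, wzero, i1, z1, i2, i3, z2, z3, i4, z4,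
    i5, z5⟩ := et_node_bundle hint hc hc' h hvinf hvinf_u hvinf_0 hvzero hvzero_u' hvzero_0
  exact ⟨Winf, Wzero, winf, wzero, i4, z4, i1, z1, i5, z5,
    Asm.node_slope_eq hp hpu hpu' i1 z1 i2 i3 z2 z3 hnd hnd' hft H n hsl⟩

/-- `(n4)*`: a prime of `R*` not associated to `ι u`, `ι u'` does not divide `p`
(thickness one: `u u' = p ψ`). -/
theorem not_dvd_natCast_Rstar (hint : IsIntegral R θ₀)
    (hc : (minpoly R θ₀).eval c ∈ maximalIdeal R)
    (hc' : IsUnit ((minpoly R θ₀).derivative.eval c)) {u u' : R} (h : IsNode u u') {p : ℕ}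
    (ψ : Rˣ) (hψ : u * u' = (p : R) * ψ) {q : Embed.Rstar hint hc} (hq : Prime q)
    (hqu : ¬ Associated q (Embed.inclStar hint hc u))
    (hqu' : ¬ Associated q (Embed.inclStar hint hc u')) :
    ¬ q ∣ (p : Embed.Rstar hint hc) := by
  obtain ⟨hpu, hpu', -, -⟩ := inclStar_prime_facts hint hc hc' h
  intro hd
  have h1 : q ∣ Embed.inclStar hint hc u * Embed.inclStar hint hc u' := by
    rw [← map_mul, hψ, map_mul, map_natCast]
    exact Dvd.dvd.mul_right hd _
  rcases hq.dvd_or_dvd h1 with h2 | h2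
  · exact hqu (hq.associated_of_dvd hpu h2)
  · exact hqu' (hq.associated_of_dvd hpu' h2)

/-- `(n4)*` in the shape `hK0` of `CFE2.edge_H_of_constants`: if every element of the constant
field `K0` is `a / p^n` with `a ∈ R` (downstairs (n4)), then at every prime `q` of `R*` not
associated to `ι u`, `ι u'` it is a fraction of elements of `R*` with denominator prime to `q`. -/
theorem hK0_Rstar (hint : IsIntegral R θ₀)
    (hc : (minpoly R θ₀).eval c ∈ maximalIdeal R)
    (hc' : IsUnit ((minpoly R θ₀).derivative.eval c)) {u u' : R} (h : IsNode u u') {p : ℕ}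
    (ψ : Rˣ) (hψ : u * u' = (p : R) * ψ) {𝕃 : Type*} [Field 𝕃] (j : E0 →+* 𝕃) (K0 : Subfield 𝕃)
    (hK0R : ∀ x ∈ K0, ∃ (a : R) (n : ℕ),
      x * j (algebraMap R E0 ((p : R) ^ n)) = j (algebraMap R E0 a))
    {q : Embed.Rstar hint hc} (hq : Prime q)
    (hqu : ¬ Associated q (Embed.inclStar hint hc u))
    (hqu' : ¬ Associated q (Embed.inclStar hint hc u')) :
    ∀ x ∈ K0, ∃ a b : Embed.Rstar hint hc, ¬ q ∣ b ∧
      x * j (algebraMap (Embed.Rstar hint hc) E0 b) =
        j (algebraMap (Embed.Rstar hint hc) E0 a) := by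
  intro x hx
  obtain ⟨a, n, han⟩ := hK0R x hx
  have hnd := not_dvd_natCast_Rstar hint hc hc' h ψ hψ hq hqu hqu'
  refine ⟨Embed.inclStar hint hc a, Embed.inclStar hint hc ((p : R) ^ n), ?_, ?_⟩
  · rw [map_pow, map_natCast]
    exact fun hd => hnd (hq.dvd_of_dvd_pow hd)
  · have e1 : ∀ r : R, algebraMap (Embed.Rstar hint hc) E0 (Embed.inclStar hint hc r) =
        algebraMap R E0 r := fun r => Embed.coe_inclStar hint hc r
    rw [e1, e1]
    exact han

end Bundle

section Transfer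

variable {R : Type*} [CommRing R] [IsDomain R] [IsLocalRing R] [IsNoetherianRing R]
  [IsIntegrallyClosed R]
variable {E0 E : Type*} [Field E0] [Field E] [Algebra R E0] [Algebra R E] [Algebra E0 E]
  [IsScalarTower R E0 E] [FaithfulSMul R E]
variable {p : ℕ} [Fact p.Prime] {σ : E →ₐ[R] E} {ι : Type*} [Fintype ι] {θ ζ : ι → E}

/-- **descent of the Artin–Schreier datum from the cover field `E` to `E0 ∋ θ₀`**: the element
`θ₀ : E0` with image `-∑ θ δ` in `E` is integral over `R`, of degree `p`, its minimal polynomial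
is separable modulo `m_R` (every root modulo `m_R` is simple). -/
theorem ASDatum_descend (D : ASDatum R p σ θ ζ) (hpm : (p : R) ∈ maximalIdeal R) {θ₀ : E0}
    (hθ₀ : algebraMap E0 E θ₀ = -∑ d, θ d) :
    IsIntegral R θ₀ ∧ (minpoly R θ₀).natDegree = p ∧
      ((minpoly R θ₀).map (residue R)).Separable ∧
      ∀ c : R, (minpoly R θ₀).eval c ∈ maximalIdeal R →
        IsUnit ((minpoly R θ₀).derivative.eval c) := by
  have hmin : minpoly R θ₀ = minpoly R (-∑ d, θ d) := by
    rw [← hθ₀, minpoly.algebraMap_eq (algebraMap E0 E).injective]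
  have hint : IsIntegral R θ₀ := by
    have h1 : IsIntegral R (algebraMap E0 E θ₀) := by rw [hθ₀]; exact D.isIntegral_theta0
    exact (isIntegral_algHom_iff (IsScalarTower.toAlgHom R E0 E)
      (algebraMap E0 E).injective).1 h1
  have hsep : ((minpoly R θ₀).map (residue R)).Separable := by
    rw [hmin]; exact D.separable hpm
  refine ⟨hint, by rw [hmin]; exact D.natDegree_eq hpm, hsep, fun c hc => ?_⟩
  exact Embed.isUnit_derivative_eval hsep hc

omit [IsDomain R] [IsNoetherianRing R] [IsIntegrallyClosed R] in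
/-- a monic polynomial of positive degree over a local ring with algebraically closed residue
field has a root modulo the maximal ideal. -/
theorem exists_eval_mem_maximalIdeal [IsAlgClosed (ResidueField R)] {Q : R[X]} (hQ : Q.Monic)
    (hdeg : Q.natDegree ≠ 0) : ∃ c : R, Q.eval c ∈ maximalIdeal R := by
  have h1 : (Q.map (residue R)).degree ≠ 0 := by
    rw [hQ.degree_map, degree_eq_natDegree hQ.ne_zero]
    exact_mod_cast hdeg
  obtain ⟨cbar, hcbar⟩ := IsAlgClosed.exists_root (Q.map (residue R)) h1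
  obtain ⟨c, rfl⟩ := residue_surjective cbar
  refine ⟨c, ?_⟩
  rw [← residue_eq_zero_iff, ← eval₂_at_apply, ← eval_map]
  exact hcbar

end Transfer

end Fermat.Agent.S40x.R2.NodeCover
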