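/-
P-S44/S40, C3-ET instance layer (helper2): the Artin–Schreier datum `NodeRing.ASDatum` on the
Kummer cover field of `R2/Cover`.

Setting of `Cover/Span.lean`: `D : CoverDatum F p`, `G` acting through `ρ : G →* RingAut L`
stably, `G1 = {g | ρ g ζ = ζ}` fixing `f0`.  Let `h ∈ F` be `G1`-fixed, `h ≠ 0` (the AS normal form
is `f0 = h ^ p * (1 + (ζ - 1) ^ p * Gf)`).  Then

  `θ := (z / h - 1) / (ζ - 1) ∈ F(z)`

is `G1`-fixed, `σ θ = ζ θ + 1`, `(1 + (ζ - 1) θ) ^ p = 1 + (ζ - 1) ^ p Gf`, and the conjugates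
`θ_q = q • θ` (`q ∈ G ⧸ G1`) satisfy `σ θ_q = χ(q) θ_q + 1`; `θ₀ = - ∑_q θ_q` is `G`-fixed.
-/
import Mathlib
import Fermat.Agent.S40x.R2.Cover.Span
import Fermat.Agent.S40x.R2.Cover.FixedPart
import Fermat.Agent.S40x.NodeRing.MkDatum
import Fermat.Agent.S40x.AS.ASIntegral

set_option autoImplicit false
set_option linter.unusedSectionVars false
set_option linter.style.haveILetI false

noncomputable section

namespace Fermat.Agent.S40x.R2.NodeCover.ASInst

open HahnSeries ModularCurve IntermediateField AlgebraicCurve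
open Fermat.Agent.S40x.R2.Cover Fermat.Agent.S40x.R2.Cover.CoverDatum

variable {L : Type*} [Field L]
variable {F : IntermediateField L (LaurentSeries L)} {p : ℕ} (D : CoverDatum F p)
variable {G : Type*} [Group G] (ρ : G →* RingAut L) (hρ : ∀ g, D.Stable (ρ g))

/-- `π = ζ - 1` in the cover field. -/
def piC : D.coverField := algebraMap L D.coverField (D.ζ - 1)

theorem piC_ne_zero : piC D ≠ 0 := by
  unfold piC
  rw [Ne, map_eq_zero, sub_eq_zero]
  exact D.hζ.ne_one D.prime.one_lt

/-- `θ = (z / h - 1) / (ζ - 1)`. -/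
def asTheta (h : F) : D.coverField :=
  (D.gen * (algebraMap F D.coverField h)⁻¹ - 1) * (piC D)⁻¹

theorem sigma_algebraMap_L (c : L) :
    D.sigma (algebraMap L D.coverField c) = algebraMap L D.coverField c := by
  rw [IsScalarTower.algebraMap_apply L F D.coverField]
  exact D.sigma.commutes _

/-- `σ θ = ζ θ + 1`. -/
theorem sigma_asTheta (h : F) :
    D.sigma (asTheta D h) = algebraMap L D.coverField D.ζ * asTheta D h + 1 := by
  have hπ := piC_ne_zero D
  have hπ' : piC D = algebraMap L D.coverField D.ζ - 1 := by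
    unfold piC; rw [map_sub, map_one]
  unfold asTheta
  rw [map_mul, map_sub, map_mul, map_one, map_inv₀, map_inv₀, D.sigma.commutes, D.sigma_gen]
  have h1 : D.sigma (piC D) = piC D := sigma_algebraMap_L D _
  rw [h1]
  field_simp
  rw [hπ']
  ring

/-- `1 + (ζ - 1) θ = z / h`. -/
theorem one_add_piC_mul_asTheta (h : F) :
    1 + piC D * asTheta D h = D.gen * (algebraMap F D.coverField h)⁻¹ := by
  unfold asTheta
  rw [mul_comm, mul_assoc, inv_mul_cancel₀ (piC_ne_zero D), mul_one]
  ring

/-- the Artin–Schreier relation `(1 + (ζ - 1) θ) ^ p = 1 + (ζ - 1) ^ p Gf`, from the normal form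
`f0 = h ^ p * (1 + (ζ - 1) ^ p * Gf)` in `F`. -/
theorem asTheta_rel {h Gf : F} (hh : h ≠ 0)
    (hrel : D.f0 = h ^ p * (1 + algebraMap L F (D.ζ - 1) ^ p * Gf)) :
    (1 + piC D * asTheta D h) ^ p = 1 + piC D ^ p * algebraMap F D.coverField Gf := by
  have hh' : algebraMap F D.coverField h ≠ 0 := by rwa [Ne, map_eq_zero]
  rw [one_add_piC_mul_asTheta, mul_pow, D.gen_pow, hrel, inv_pow, map_mul, map_pow, map_add,
    map_one, map_mul, map_pow, ← IsScalarTower.algebraMap_apply L F D.coverField]
  unfold piC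
  field_simp

/-- `θ` is integral over any subring-like `R₀` over which `Gf` is integral. -/
theorem isIntegral_asTheta {R₀ : Type*} [CommRing R₀] [Algebra R₀ D.coverField] {h Gf : F}
    (hh : h ≠ 0) (hrel : D.f0 = h ^ p * (1 + algebraMap L F (D.ζ - 1) ^ p * Gf))
    (hG : IsIntegral R₀ (algebraMap F D.coverField Gf)) : IsIntegral R₀ (asTheta D h) := by
  have hζ' : IsPrimitiveRoot (algebraMap L D.coverField D.ζ) p :=
    D.hζ.map_of_injective (algebraMap L D.coverField).injective
  refine Fermat.Agent.S40x.AS.ASIntegral.isIntegral_theta_of_isPrimitiveRoot D.prime hζ' hG ?_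
  have h1 := asTheta_rel D hh hrel
  have hπ' : piC D = algebraMap L D.coverField D.ζ - 1 := by
    unfold piC; rw [map_sub, map_one]
  rw [hπ'] at h1
  exact h1

/-! ### The action of `G` -/

theorem coverGalois_smul_algebraMap_F_of_fixed {g : G} {y : F}
    (hy : coeffMap ((ρ g : L ≃+* L) : L →+* L) (y : LaurentSeries L) = y) :
    D.coverGalois ρ hρ g • algebraMap F D.coverField y = algebraMap F D.coverField y :=
  Subtype.ext (by rw [coe_coverGalois_smul]; exact hy)

section Fixed

variable {h : F}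
  (hfix : ∀ g ∈ D.G1 ρ, coeffMap ((ρ g : L ≃+* L) : L →+* L) (D.f0 : LaurentSeries L) = D.f0)
  (hfixh : ∀ g ∈ D.G1 ρ, coeffMap ((ρ g : L ≃+* L) : L →+* L) (h : LaurentSeries L) = h)

include hfix hfixh in
/-- `θ` is `G1`-fixed. -/
theorem smul_asTheta_of_mem_G1 {g : G} (hg : g ∈ D.G1 ρ) :
    D.coverGalois ρ hρ g • asTheta D h = asTheta D h := by
  unfold asTheta piC
  rw [smul_mul', smul_sub, smul_mul', smul_one, smul_inv'', smul_inv'',
    D.coverGalois_smul_gen_of_fixed ρ hρ (hfix g hg),
    coverGalois_smul_algebraMap_F_of_fixed D ρ hρ (hfixh g hg),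
    D.coverGalois_smul_algebraMap_L ρ hρ, map_sub, map_one, (D.mem_G1_iff ρ).mp hg]

/-- The conjugate `g • θ`, as a function on `G ⧸ G1`. -/
def conjTheta : G ⧸ D.G1 ρ → D.coverField :=
  Quotient.lift (fun g : G => D.coverGalois ρ hρ g • asTheta D h) (by
    intro a b hab
    have hab' : a⁻¹ * b ∈ D.G1 ρ := QuotientGroup.leftRel_apply.mp hab
    show D.coverGalois ρ hρ a • asTheta D h = D.coverGalois ρ hρ b • asTheta D h
    have hb : b = a * (a⁻¹ * b) := by group
    rw [hb, map_mul, mul_smul, smul_asTheta_of_mem_G1 D ρ hρ hfix hfixh hab'])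

theorem conjTheta_mk (g : G) :
    conjTheta D ρ hρ hfix hfixh (QuotientGroup.mk g) = D.coverGalois ρ hρ g • asTheta D h := rfl

/-- `σ θ_q = χ(q) θ_q + 1`. -/
theorem sigma_conjTheta (q : G ⧸ D.G1 ρ) :
    D.sigma (conjTheta D ρ hρ hfix hfixh q) =
      algebraMap L D.coverField (D.chi ρ q) * conjTheta D ρ hρ hfix hfixh q + 1 := by
  induction q using QuotientGroup.induction_on with
  | H g =>
    rw [conjTheta_mk, chi_mk, ← D.coverGalois_smul_sigma ρ hρ, sigma_asTheta, smul_add, smul_mul',
      smul_one, D.coverGalois_smul_algebraMap_L ρ hρ]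

theorem smul_conjTheta (g : G) (q : G ⧸ D.G1 ρ) :
    D.coverGalois ρ hρ g • conjTheta D ρ hρ hfix hfixh q =
      conjTheta D ρ hρ hfix hfixh (g • q) := by
  induction q using QuotientGroup.induction_on with
  | H k =>
    rw [conjTheta_mk, ← mul_smul, ← map_mul]
    rfl

theorem chi_pow (q : G ⧸ D.G1 ρ) : (algebraMap L D.coverField (D.chi ρ q)) ^ p = 1 := by
  induction q using QuotientGroup.induction_on with
  | H g => rw [chi_mk, ← map_pow, ← map_pow, D.hζ.pow_eq_one, map_one, map_one]

variable [Fintype (G ⧸ D.G1 ρ)]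

/-- `θ₀ = - ∑_q θ_q`. -/
def theta0 : D.coverField := -∑ q : G ⧸ D.G1 ρ, conjTheta D ρ hρ hfix hfixh q

/-- `θ₀` is `G`-fixed: it lies in `FL₀`. -/
theorem theta0_mem_fixedField : theta0 D ρ hρ hfix hfixh ∈ D.fixedField ρ hρ := by
  rw [CoverDatum.mem_fixedField_iff]
  intro g
  unfold theta0
  rw [smul_neg, Finset.smul_sum]
  simp only [smul_conjTheta]
  exact congrArg Neg.neg (Equiv.sum_comp (MulAction.toPerm g : Equiv.Perm (G ⧸ D.G1 ρ))
    (conjTheta D ρ hρ hfix hfixh))

end Fixed

/-! ### The datum -/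

section Datum

open Fermat.Agent.S40x.NodeRing

variable {R : Type*} [CommRing R] [Algebra R F] [Algebra R D.coverField]
  [IsScalarTower R F D.coverField]

/-- the deck transformation as an `R`-algebra endomorphism of the cover field. -/
def sigmaR : D.coverField →ₐ[R] D.coverField := (D.sigma : D.coverField →ₐ[F] D.coverField).restrictScalars R

@[simp] theorem sigmaR_apply (x : D.coverField) : sigmaR D (R := R) x = D.sigma x := rfl

variable (hRfix : ∀ (g : G) (r : R),
  coeffMap ((ρ g : L ≃+* L) : L →+* L) ((algebraMap R F r : F) : LaurentSeries L) =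
    ((algebraMap R F r : F) : LaurentSeries L))

include hRfix in
/-- the action of `g : G` as an `R`-algebra endomorphism of the cover field. -/
theorem isIntegral_smul (g : G) {x : D.coverField} (hx : IsIntegral R x) :
    IsIntegral R (D.coverGalois ρ hρ g • x) := by
  let f : D.coverField →ₐ[R] D.coverField :=
    { (MulSemiringAction.toRingHom _ D.coverField (D.coverGalois ρ hρ g)) with
      commutes' := fun r => by
        show D.coverGalois ρ hρ g • algebraMap R D.coverField r = algebraMap R D.coverField r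
        rw [IsScalarTower.algebraMap_apply R F D.coverField]
        exact coverGalois_smul_algebraMap_F_of_fixed D ρ hρ (hRfix g r) }
  exact hx.map f

variable {h Gf : F} (hh : h ≠ 0)
  (hrel : D.f0 = h ^ p * (1 + algebraMap L F (D.ζ - 1) ^ p * Gf))
  (hG : IsIntegral R (algebraMap F D.coverField Gf))
  (hfix : ∀ g ∈ D.G1 ρ, coeffMap ((ρ g : L ≃+* L) : L →+* L) (D.f0 : LaurentSeries L) = D.f0)
  (hfixh : ∀ g ∈ D.G1 ρ, coeffMap ((ρ g : L ≃+* L) : L →+* L) (h : LaurentSeries L) = h)

include hRfix hh hrel hG in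
theorem isIntegral_conjTheta (q : G ⧸ D.G1 ρ) :
    IsIntegral R (conjTheta D ρ hρ hfix hfixh q) := by
  induction q using QuotientGroup.induction_on with
  | H g =>
    rw [conjTheta_mk]
    exact isIntegral_smul D ρ hρ hRfix g (isIntegral_asTheta D hh hrel hG)

variable [Fintype (G ⧸ D.G1 ρ)]

include hRfix hh hrel hG in
/-- **The Artin–Schreier datum on the Kummer cover** (`ι = G ⧸ G1`, `θ q = q • θ`,
`ζ q = χ(q)`), with the degree bound as a hypothesis. -/
theorem asDatum (hcard : Fintype.card (G ⧸ D.G1 ρ) + 1 = p)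
    (hdeg : (minpoly R (theta0 D ρ hρ hfix hfixh)).natDegree ≤ p) :
    ASDatum R p (sigmaR D (R := R)) (conjTheta D ρ hρ hfix hfixh)
      (fun q => algebraMap L D.coverField (D.chi ρ q)) where
  card := hcard
  integral := isIntegral_conjTheta D ρ hρ hRfix hh hrel hG hfix hfixh
  zeta_pow := chi_pow D ρ
  sigma_zeta := fun _ => sigma_algebraMap_L D _
  sigma_theta := sigma_conjTheta D ρ hρ hfix hfixh
  natDegree_le := hdeg

include hRfix hh hrel hG in
/-- **The Artin–Schreier datum on the Kummer cover**, the degree bound being discharged by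
`ASDatum.of_finrank`: `R` integrally closed with fraction field `F0'`, `[E0' : F0'] = p`, and
`θ₀` comes from `θ₀' ∈ E0'` (any model `F0' ⊆ E0'` of `F₀ ⊆ FL₀`: helper15's
`FixedBase/FixedCover` or helper48's `F0/E0`). -/
theorem asDatum_of_finrank [IsDomain R] [IsIntegrallyClosed R]
    {F0' E0' : Type*} [Field F0'] [Field E0'] [Algebra R F0'] [IsFractionRing R F0']
    [Algebra F0' E0'] [Algebra R E0'] [IsScalarTower R F0' E0'] [FiniteDimensional F0' E0']
    [Algebra E0' D.coverField] [IsScalarTower R E0' D.coverField]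
    (hfin : Module.finrank F0' E0' = p) (hcard : Fintype.card (G ⧸ D.G1 ρ) + 1 = p)
    {θ₀' : E0'} (hθ : algebraMap E0' D.coverField θ₀' = theta0 D ρ hρ hfix hfixh) :
    ASDatum R p (sigmaR D (R := R)) (conjTheta D ρ hρ hfix hfixh)
      (fun q => algebraMap L D.coverField (D.chi ρ q)) :=
  ASDatum.of_finrank F0' hfin hcard
    (isIntegral_conjTheta D ρ hρ hRfix hh hrel hG hfix hfixh) (chi_pow D ρ)
    (fun _ => sigma_algebraMap_L D _) (sigma_conjTheta D ρ hρ hfix hfixh) hθ

end Datum

end Fermat.Agent.S40x.R2.NodeCover.ASInst
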