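/-
P-S44/S40, C3-ET instance layer, the `0`-chart TWIN of helper2's `ASDatumInst` (helper88).

Setting of `Cover/Span.lean` / `NodeCover/ASDatumInst.lean`: `D : CoverDatum F p`, `G` acting through
`ρ : G →* RingAut L` stably, `G1 = {g | ρ g ζ = ζ}` fixing `f0`.  At the places of the swap chart
the Artin–Schreier normal form of C3-AS reads

  `h0 ^ p = f0 * (1 + (ζ - 1) ^ p * G0)`,   `h0 ∈ F` `G1`-fixed, `h0 ≠ 0`,

so that `w := h0 / z` is a `p`-th root of `1 + (ζ - 1) ^ p G0 = 1 + (ζ⁻¹ - 1) ^ p ((-1) ^ p G0)` with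
`σ w = ζ⁻¹ w`.  Hence, with the primitive root `ζ⁻¹`,

  `θ' := (h0 / z - 1) / (ζ⁻¹ - 1) ∈ F(z)`

is `G1`-fixed, `σ θ' = ζ⁻¹ θ' + 1`, `(1 + (ζ⁻¹ - 1) θ') ^ p = 1 + (ζ⁻¹ - 1) ^ p ((-1) ^ p G0)`, the
conjugates `θ'_q = q • θ'` (`q ∈ G ⧸ G1`) satisfy `σ θ'_q = χ(q)⁻¹ θ'_q + 1`, and
`θ₀' = - ∑_q θ'_q` is `G`-fixed: the SAME `NodeRing.ASDatum` shape as on the chart `t ≠ ∞`,
with `ζ q := χ(q)⁻¹`.
-/
import Mathlib
import Fermat.Agent.S40x.R2.NodeCover.ASDatumInst

set_option autoImplicit false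
set_option linter.unusedSectionVars false
set_option linter.style.haveILetI false

noncomputable section

namespace Fermat.Agent.S40x.R2.NodeCover.ASInstZero

open HahnSeries ModularCurve IntermediateField AlgebraicCurve
open Fermat.Agent.S40x.R2.Cover Fermat.Agent.S40x.R2.Cover.CoverDatum
open Fermat.Agent.S40x.R2.NodeCover.ASInst

variable {L : Type*} [Field L]
variable {F : IntermediateField L (LaurentSeries L)} {p : ℕ} (D : CoverDatum F p)
variable {G : Type*} [Group G] (ρ : G →* RingAut L) (hρ : ∀ g, D.Stable (ρ g))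

theorem zeta_ne_zero : D.ζ ≠ 0 := D.hζ.ne_zero D.prime.ne_zero

theorem zeta_inv_isPrimitiveRoot : IsPrimitiveRoot D.ζ⁻¹ p := D.hζ.inv

/-- `π' = ζ⁻¹ - 1` in the cover field. -/
def piC' : D.coverField := algebraMap L D.coverField (D.ζ⁻¹ - 1)

theorem piC'_ne_zero : piC' D ≠ 0 := by
  unfold piC'
  rw [Ne, map_eq_zero, sub_eq_zero]
  exact (zeta_inv_isPrimitiveRoot D).ne_one D.prime.one_lt

theorem piC'_eq : piC' D = algebraMap L D.coverField D.ζ⁻¹ - 1 := by
  unfold piC'; rw [map_sub, map_one]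

/-- `π ^ p = (-1) ^ p π' ^ p`. -/
theorem piC_pow_eq : piC D ^ p = (-1) ^ p * piC' D ^ p := by
  have hz := zeta_ne_zero D
  have h1 : piC D = -(algebraMap L D.coverField D.ζ) * piC' D := by
    unfold piC piC'
    rw [← map_neg, ← map_mul]
    congr 1
    field_simp
    ring
  rw [h1, mul_pow, neg_pow, ← map_pow, D.hζ.pow_eq_one, map_one, mul_one]

theorem gen_ne_zero : D.gen ≠ 0 := fun h0 => D.z_ne_zero (by rw [← D.coe_gen, h0]; rfl)

/-- `θ' = (h0 / z - 1) / (ζ⁻¹ - 1)`. -/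
def asTheta' (h0 : F) : D.coverField :=
  (algebraMap F D.coverField h0 * D.gen⁻¹ - 1) * (piC' D)⁻¹

/-- `σ θ' = ζ⁻¹ θ' + 1`. -/
theorem sigma_asTheta' (h0 : F) :
    D.sigma (asTheta' D h0) = algebraMap L D.coverField D.ζ⁻¹ * asTheta' D h0 + 1 := by
  have hπ := piC'_ne_zero D
  have h1 : D.sigma (piC' D) = piC' D := sigma_algebraMap_L D _
  unfold asTheta'
  rw [map_mul, map_sub, map_mul, map_one, map_inv₀, map_inv₀, D.sigma.commutes, D.sigma_gen, h1,
    mul_inv, ← map_inv₀ (algebraMap L D.coverField) D.ζ]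
  rw [piC'_eq] at hπ ⊢
  generalize algebraMap L D.coverField D.ζ⁻¹ = b at hπ ⊢
  generalize D.gen⁻¹ = gi
  field_simp
  ring

/-- `1 + (ζ⁻¹ - 1) θ' = h0 / z`. -/
theorem one_add_piC'_mul_asTheta' (h0 : F) :
    1 + piC' D * asTheta' D h0 = algebraMap F D.coverField h0 * D.gen⁻¹ := by
  unfold asTheta'
  rw [mul_comm, mul_assoc, inv_mul_cancel₀ (piC'_ne_zero D), mul_one]
  ring

theorem algebraMap_f0_ne_zero : algebraMap F D.coverField D.f0 ≠ 0 := by
  rw [← D.gen_pow]; exact pow_ne_zero _ (gen_ne_zero D)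

/-- the Artin–Schreier relation for `θ'`, from the normal form
`h0 ^ p = f0 * (1 + (ζ - 1) ^ p * G0)` in `F`. -/
theorem asTheta'_rel {h0 G0 : F}
    (hrel : h0 ^ p = D.f0 * (1 + algebraMap L F (D.ζ - 1) ^ p * G0)) :
    (1 + piC' D * asTheta' D h0) ^ p =
      1 + piC' D ^ p * ((-1) ^ p * algebraMap F D.coverField G0) := by
  have hf0 := algebraMap_f0_ne_zero D
  have h1 : algebraMap F D.coverField h0 ^ p =
      algebraMap F D.coverField D.f0 * (1 + piC D ^ p * algebraMap F D.coverField G0) := by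
    rw [← map_pow, hrel, map_mul, map_add, map_one, map_mul, map_pow,
      ← IsScalarTower.algebraMap_apply L F D.coverField]
    rfl
  rw [one_add_piC'_mul_asTheta', mul_pow, inv_pow, D.gen_pow, h1, piC_pow_eq]
  field_simp

/-- `θ'` is integral over any `R₀` over which `G0` is integral. -/
theorem isIntegral_asTheta' {R₀ : Type*} [CommRing R₀] [Algebra R₀ D.coverField] {h0 G0 : F}
    (hrel : h0 ^ p = D.f0 * (1 + algebraMap L F (D.ζ - 1) ^ p * G0))
    (hG : IsIntegral R₀ (algebraMap F D.coverField G0)) : IsIntegral R₀ (asTheta' D h0) := by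
  have hζ' : IsPrimitiveRoot (algebraMap L D.coverField D.ζ⁻¹) p :=
    (zeta_inv_isPrimitiveRoot D).map_of_injective (algebraMap L D.coverField).injective
  have hG' : IsIntegral R₀ ((-1) ^ p * algebraMap F D.coverField G0) :=
    (isIntegral_one.neg.pow p).mul hG
  refine Fermat.Agent.S40x.AS.ASIntegral.isIntegral_theta_of_isPrimitiveRoot D.prime hζ' hG' ?_
  have h1 := asTheta'_rel D hrel
  rw [piC'_eq] at h1
  exact h1

/-! ### The action of `G` -/

section Fixed

variable {h0 : F}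
  (hfix : ∀ g ∈ D.G1 ρ, coeffMap ((ρ g : L ≃+* L) : L →+* L) (D.f0 : LaurentSeries L) = D.f0)
  (hfixh : ∀ g ∈ D.G1 ρ, coeffMap ((ρ g : L ≃+* L) : L →+* L) (h0 : LaurentSeries L) = h0)

include hfix hfixh in
/-- `θ'` is `G1`-fixed. -/
theorem smul_asTheta'_of_mem_G1 {g : G} (hg : g ∈ D.G1 ρ) :
    D.coverGalois ρ hρ g • asTheta' D h0 = asTheta' D h0 := by
  have hfixc : ρ g (D.ζ⁻¹ - 1) = D.ζ⁻¹ - 1 := by
    have h1 : ρ g D.ζ⁻¹ = (ρ g D.ζ)⁻¹ := map_inv₀ (ρ g : L ≃+* L) D.ζ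
    have h2 : ρ g (D.ζ⁻¹ - 1) = ρ g D.ζ⁻¹ - ρ g 1 := map_sub (ρ g : L ≃+* L) _ _
    have h3 : ρ g (1 : L) = 1 := map_one (ρ g : L ≃+* L)
    rw [h2, h3, h1, (D.mem_G1_iff ρ).mp hg]
  let φ : D.coverField →+* D.coverField :=
    MulSemiringAction.toRingHom _ D.coverField (D.coverGalois ρ hρ g)
  have e1 : φ (piC' D) = piC' D := by
    show D.coverGalois ρ hρ g • piC' D = piC' D
    unfold piC'
    rw [D.coverGalois_smul_algebraMap_L ρ hρ, hfixc]
  have e2 : φ D.gen = D.gen :=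
    D.coverGalois_smul_gen_of_fixed ρ hρ (hfix g hg)
  have e3 : φ (algebraMap F D.coverField h0) = algebraMap F D.coverField h0 :=
    coverGalois_smul_algebraMap_F_of_fixed D ρ hρ (hfixh g hg)
  show φ (asTheta' D h0) = asTheta' D h0
  unfold asTheta'
  rw [map_mul, map_sub, map_mul, map_one, map_inv₀, map_inv₀, e1, e2, e3]

/-- The conjugate `g • θ'`, as a function on `G ⧸ G1`. -/
def conjTheta' : G ⧸ D.G1 ρ → D.coverField :=
  Quotient.lift (fun g : G => D.coverGalois ρ hρ g • asTheta' D h0) (by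
    intro a b hab
    have hab' : a⁻¹ * b ∈ D.G1 ρ := QuotientGroup.leftRel_apply.mp hab
    show D.coverGalois ρ hρ a • asTheta' D h0 = D.coverGalois ρ hρ b • asTheta' D h0
    have hb : b = a * (a⁻¹ * b) := by group
    rw [hb, map_mul, mul_smul, smul_asTheta'_of_mem_G1 D ρ hρ hfix hfixh hab'])

theorem conjTheta'_mk (g : G) :
    conjTheta' D ρ hρ hfix hfixh (QuotientGroup.mk g) = D.coverGalois ρ hρ g • asTheta' D h0 :=
  rfl

/-- `σ θ'_q = χ(q)⁻¹ θ'_q + 1`. -/
theorem sigma_conjTheta' (q : G ⧸ D.G1 ρ) :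
    D.sigma (conjTheta' D ρ hρ hfix hfixh q) =
      algebraMap L D.coverField (D.chi ρ q)⁻¹ * conjTheta' D ρ hρ hfix hfixh q + 1 := by
  induction q using QuotientGroup.induction_on with
  | H g =>
    have h1 : ρ g D.ζ⁻¹ = (ρ g D.ζ)⁻¹ := map_inv₀ (ρ g : L ≃+* L) D.ζ
    let φ : D.coverField →+* D.coverField :=
      MulSemiringAction.toRingHom _ D.coverField (D.coverGalois ρ hρ g)
    have e1 : φ (algebraMap L D.coverField D.ζ⁻¹) = algebraMap L D.coverField (ρ g D.ζ)⁻¹ := by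
      show D.coverGalois ρ hρ g • algebraMap L D.coverField D.ζ⁻¹ = _
      rw [D.coverGalois_smul_algebraMap_L ρ hρ, h1]
    rw [conjTheta'_mk, chi_mk, ← D.coverGalois_smul_sigma ρ hρ, sigma_asTheta']
    show φ (algebraMap L D.coverField D.ζ⁻¹ * asTheta' D h0 + 1) =
      algebraMap L D.coverField (ρ g D.ζ)⁻¹ * φ (asTheta' D h0) + 1
    rw [map_add, map_mul, map_one, e1]

theorem smul_conjTheta' (g : G) (q : G ⧸ D.G1 ρ) :
    D.coverGalois ρ hρ g • conjTheta' D ρ hρ hfix hfixh q =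
      conjTheta' D ρ hρ hfix hfixh (g • q) := by
  induction q using QuotientGroup.induction_on with
  | H k =>
    rw [conjTheta'_mk, ← mul_smul, ← map_mul]
    rfl

theorem chi_inv_pow (q : G ⧸ D.G1 ρ) : (algebraMap L D.coverField (D.chi ρ q)⁻¹) ^ p = 1 := by
  induction q using QuotientGroup.induction_on with
  | H g =>
    rw [chi_mk, ← map_pow, inv_pow, ← map_pow, D.hζ.pow_eq_one, map_one, inv_one, map_one]

variable [Fintype (G ⧸ D.G1 ρ)]

/-- `θ₀' = - ∑_q θ'_q`. -/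
def theta0' : D.coverField := -∑ q : G ⧸ D.G1 ρ, conjTheta' D ρ hρ hfix hfixh q

/-- `θ₀'` is `G`-fixed: it lies in `FL₀`. -/
theorem theta0'_mem_fixedField : theta0' D ρ hρ hfix hfixh ∈ D.fixedField ρ hρ := by
  rw [CoverDatum.mem_fixedField_iff]
  intro g
  unfold theta0'
  rw [smul_neg, Finset.smul_sum]
  simp only [smul_conjTheta']
  exact congrArg Neg.neg (Equiv.sum_comp (MulAction.toPerm g : Equiv.Perm (G ⧸ D.G1 ρ))
    (conjTheta' D ρ hρ hfix hfixh))

end Fixed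

/-! ### The datum -/

section Datum

open Fermat.Agent.S40x.NodeRing

variable {R : Type*} [CommRing R] [Algebra R F] [Algebra R D.coverField]
  [IsScalarTower R F D.coverField]

variable (hRfix : ∀ (g : G) (r : R),
  coeffMap ((ρ g : L ≃+* L) : L →+* L) ((algebraMap R F r : F) : LaurentSeries L) =
    ((algebraMap R F r : F) : LaurentSeries L))

variable {h0 G0 : F}
  (hrel : h0 ^ p = D.f0 * (1 + algebraMap L F (D.ζ - 1) ^ p * G0))
  (hG : IsIntegral R (algebraMap F D.coverField G0))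
  (hfix : ∀ g ∈ D.G1 ρ, coeffMap ((ρ g : L ≃+* L) : L →+* L) (D.f0 : LaurentSeries L) = D.f0)
  (hfixh : ∀ g ∈ D.G1 ρ, coeffMap ((ρ g : L ≃+* L) : L →+* L) (h0 : LaurentSeries L) = h0)

include hRfix hrel hG in
theorem isIntegral_conjTheta' (q : G ⧸ D.G1 ρ) :
    IsIntegral R (conjTheta' D ρ hρ hfix hfixh q) := by
  induction q using QuotientGroup.induction_on with
  | H g =>
    rw [conjTheta'_mk]
    exact isIntegral_smul D ρ hρ hRfix g (isIntegral_asTheta' D hrel hG)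

variable [Fintype (G ⧸ D.G1 ρ)]

include hRfix hrel hG in
/-- **The Artin–Schreier datum on the Kummer cover, `0`-chart form** (`ι = G ⧸ G1`,
`θ q = q • θ'`, `ζ q = χ(q)⁻¹`), with the degree bound as a hypothesis. -/
theorem asDatum' (hcard : Fintype.card (G ⧸ D.G1 ρ) + 1 = p)
    (hdeg : (minpoly R (theta0' D ρ hρ hfix hfixh)).natDegree ≤ p) :
    ASDatum R p (sigmaR D (R := R)) (conjTheta' D ρ hρ hfix hfixh)
      (fun q => algebraMap L D.coverField (D.chi ρ q)⁻¹) where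
  card := hcard
  integral := isIntegral_conjTheta' D ρ hρ hRfix hrel hG hfix hfixh
  zeta_pow := chi_inv_pow D ρ
  sigma_zeta := fun _ => sigma_algebraMap_L D _
  sigma_theta := sigma_conjTheta' D ρ hρ hfix hfixh
  natDegree_le := hdeg

include hRfix hrel hG in
/-- **The Artin–Schreier datum on the Kummer cover, `0`-chart form**, the degree bound being
discharged by `ASDatum.of_finrank` (same shape as `ASInst.asDatum_of_finrank`). -/
theorem asDatum'_of_finrank [IsDomain R] [IsIntegrallyClosed R]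
    {F0' E0' : Type*} [Field F0'] [Field E0'] [Algebra R F0'] [IsFractionRing R F0']
    [Algebra F0' E0'] [Algebra R E0'] [IsScalarTower R F0' E0'] [FiniteDimensional F0' E0']
    [Algebra E0' D.coverField] [IsScalarTower R E0' D.coverField]
    (hfin : Module.finrank F0' E0' = p) (hcard : Fintype.card (G ⧸ D.G1 ρ) + 1 = p)
    {θ₀' : E0'} (hθ : algebraMap E0' D.coverField θ₀' = theta0' D ρ hρ hfix hfixh) :
    ASDatum R p (sigmaR D (R := R)) (conjTheta' D ρ hρ hfix hfixh)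
      (fun q => algebraMap L D.coverField (D.chi ρ q)⁻¹) :=
  ASDatum.of_finrank F0' hfin hcard
    (isIntegral_conjTheta' D ρ hρ hRfix hrel hG hfix hfixh) (chi_inv_pow D ρ)
    (fun _ => sigma_algebraMap_L D _) (sigma_conjTheta' D ρ hρ hfix hfixh) hθ

end Datum

end Fermat.Agent.S40x.R2.NodeCover.ASInstZero
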