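/-
P-S44/S40, C3-ET instance seam (helper2): the inertia group at `p` acts on `μ_p` through the FULL
group `(ℤ/p)ˣ`: the inertia conjugates of a primitive `p`-th root of unity `ζ` are all `p - 1`
primitive roots.  (Consumer: the field `card : Fintype.card ι + 1 = p` of `NodeRing.ASDatum` with
`ι = I / G1`.)

Proof: the polynomial `h = ∏_{t ∈ conjSet} (X - (t - 1))` is monic of degree `d = #conjSet`, has
inertia-fixed coefficients in `P`, and vanishes at `π = ζ - 1`; if `d ≤ p - 2` the peeling lemma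
`G1Decomp.mem_nonunits_of_sum_mem` (the powers `π^i`, `i < p - 1`, are independent over the
inertia-fixed integers) makes the leading coefficient `1` a non-unit.
-/
import Mathlib
import Fermat.Agent.S40x.W.G1Decomp

set_option autoImplicit false
set_option linter.unusedSectionVars false
set_option linter.style.haveILetI false

noncomputable section

namespace Fermat.Agent.S40x.R2.NodeCover.InertiaCard

open Polynomial
open Fermat.Agent.S40x.W.G1 Fermat.Agent.S40x.W.G1Decomp

local notation "Qbar" => AlgebraicClosure ℚ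
local notation "Γℚ" => (AlgebraicClosure ℚ ≃ₐ[ℚ] AlgebraicClosure ℚ)

variable {P : ValuationSubring Qbar} {p : ℕ} (hp : p.Prime) (hP : P.LiesOverPrime p) {ζ : Qbar}
  (hζ : IsPrimitiveRoot ζ p)

/-- the shifted orbit polynomial `∏_{t ∈ conjSet} (X - (t - 1))`. -/
def orbPoly (P : ValuationSubring Qbar) (p : ℕ) (ζ : Qbar) : Qbar[X] :=
  ∏ t ∈ conjSet P p ζ, (X - C (t - 1))

theorem orbPoly_monic : (orbPoly P p ζ).Monic := monic_prod_X_sub_C _ _

theorem orbPoly_natDegree : (orbPoly P p ζ).natDegree = (conjSet P p ζ).card := by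
  unfold orbPoly
  rw [natDegree_finsetProd_X_sub_C_eq_card]

include hp hζ in
theorem orbPoly_eval : (orbPoly P p ζ).eval (ζ - 1) = 0 := by
  unfold orbPoly
  rw [eval_prod]
  exact Finset.prod_eq_zero (zeta_mem_conjSet hp hζ) (by simp)

include hp hζ in
/-- the orbit polynomial is fixed by inertia. -/
theorem orbPoly_map (σ : Γℚ) (hσ : σ ∈ P.inertiaSubgroupIn ℚ) :
    (orbPoly P p ζ).map (σ : Qbar →+* Qbar) = orbPoly P p ζ := by
  unfold orbPoly
  rw [Polynomial.map_prod]
  refine Finset.prod_nbij' (fun t => σ t) (fun t => σ⁻¹ t) ?_ ?_ ?_ ?_ ?_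
  · intro t ht
    obtain ⟨τ, hτ, rfl⟩ := (mem_conjSet hp hζ).mp ht
    exact (mem_conjSet hp hζ).mpr ⟨σ * τ, mul_mem hσ hτ, rfl⟩
  · intro t ht
    obtain ⟨τ, hτ, rfl⟩ := (mem_conjSet hp hζ).mp ht
    exact (mem_conjSet hp hζ).mpr ⟨σ⁻¹ * τ, mul_mem (inv_mem hσ) hτ, rfl⟩
  · intro t _
    show (σ⁻¹ * σ) t = t
    rw [inv_mul_cancel]
    rfl
  · intro t _
    show (σ * σ⁻¹) t = t
    rw [mul_inv_cancel]
    rfl
  · intro t _
    rw [Polynomial.map_sub, map_X, map_C]
    simp

include hp hζ in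
theorem orbPoly_coeff_fixed (k : ℕ) (σ : Γℚ) (hσ : σ ∈ P.inertiaSubgroupIn ℚ) :
    σ ((orbPoly P p ζ).coeff k) = (orbPoly P p ζ).coeff k := by
  have h := congrArg (fun q => q.coeff k) (orbPoly_map hp hζ σ hσ)
  simpa [coeff_map] using h

include hp hζ in
/-- the coefficients of the orbit polynomial are integral. -/
theorem orbPoly_coeff_mem (k : ℕ) : (orbPoly P p ζ).coeff k ∈ P := by
  have hmem : ∀ t ∈ conjSet P p ζ, t - 1 ∈ P := by
    intro t ht
    obtain ⟨τ, hτ, rfl⟩ := (mem_conjSet hp hζ).mp ht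
    exact sub_mem (apply_mem_of_inertia hτ (zeta_mem hp hζ)) (one_mem P)
  let g : (↥P)[X] := ∏ t ∈ (conjSet P p ζ).attach, (X - C ⟨(t : Qbar) - 1, hmem t t.2⟩)
  have hg : g.map P.subtype = orbPoly P p ζ := by
    unfold orbPoly
    rw [Polynomial.map_prod, ← Finset.prod_attach (conjSet P p ζ)]
    refine Finset.prod_congr rfl fun t _ => ?_
    rw [Polynomial.map_sub, map_X, map_C]
    rfl
  rw [← hg, coeff_map]
  exact (g.coeff k).2

include hp hP hζ in
/-- **The inertia group acts on `μ_p` through all of `(ℤ/p)ˣ`**: `ζ` has exactly `p - 1` inertia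
conjugates. -/
theorem card_conjSet : (conjSet P p ζ).card = p - 1 := by
  refine le_antisymm (card_conjSet_le hp) ?_
  by_contra hlt
  rw [not_le] at hlt
  set d := (conjSet P p ζ).card with hd
  have hn : d + 1 ≤ p - 1 := hlt
  have hsum : ∑ i ∈ Finset.range (d + 1), (ζ - 1) ^ i * (orbPoly P p ζ).coeff i =
      (ζ - 1) ^ (d + 1) * 0 := by
    rw [mul_zero, ← orbPoly_eval hp hζ (P := P), eval_eq_sum_range, orbPoly_natDegree]
    exact Finset.sum_congr rfl fun i _ => mul_comm _ _
  have h0 := mem_nonunits_of_sum_mem hp hP hζ (d + 1) hn (fun i => (orbPoly P p ζ).coeff i)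
    (fun i _ => orbPoly_coeff_mem hp hζ i) (fun i _ t ht => orbPoly_coeff_fixed hp hζ i t ht)
    0 (zero_mem P) hsum d (Nat.lt_succ_self d)
  have h1 : (orbPoly P p ζ).coeff d = 1 := by
    rw [hd, ← orbPoly_natDegree]
    exact orbPoly_monic.coeff_natDegree
  change (orbPoly P p ζ).coeff d ∈ P.nonunits at h0
  rw [h1, ValuationSubring.mem_nonunits_iff, map_one] at h0
  exact lt_irrefl _ h0

include hp hP hζ in
/-- every primitive `p`-th root of unity is an inertia conjugate of `ζ`. -/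
theorem exists_inertia_apply_eq {ξ : Qbar} (hξ : IsPrimitiveRoot ξ p) :
    ∃ σ ∈ P.inertiaSubgroupIn ℚ, σ ζ = ξ := by
  classical
  have hsub : conjSet P p ζ ⊆ primitiveRoots p Qbar := by
    unfold conjSet
    exact Finset.filter_subset _ _
  have hcard : (primitiveRoots p Qbar).card = p - 1 := by
    rw [hζ.card_primitiveRoots, Nat.totient_prime hp]
  have heq : conjSet P p ζ = primitiveRoots p Qbar :=
    Finset.eq_of_subset_of_card_le hsub (by rw [hcard, card_conjSet hp hP hζ])
  have hmem : ξ ∈ conjSet P p ζ := by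
    rw [heq, mem_primitiveRoots hp.pos]
    exact hξ
  exact (mem_conjSet hp hζ).mp hmem

include hp hP hζ in
/-- for every `a` prime to `p` there is `σ ∈ I` with `σ ζ = ζ ^ a`. -/
theorem exists_inertia_apply_eq_pow {a : ℕ} (ha : a.Coprime p) :
    ∃ σ ∈ P.inertiaSubgroupIn ℚ, σ ζ = ζ ^ a :=
  exists_inertia_apply_eq hp hP hζ (hζ.pow_of_coprime a ha)

end Fermat.Agent.S40x.R2.NodeCover.InertiaCard
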