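/-
P-S44/S40, C3-ET instance layer (helper2): `[I : G1] = p - 1` in the vocabulary of `R2/Cover`:
for `G = I_P` (inertia at a place `P | p` of `ℚ̄`) acting tautologically on `ℚ̄`, the subgroup
`D.G1 ρ = {g | g ζ = ζ}` of `Cover/Span` has index `p - 1` (`= field `card` of `NodeRing.ASDatum`).
-/
import Mathlib
import Fermat.Agent.S40x.R2.Cover.Modular
import Fermat.Agent.S40x.R2.Cover.Span
import Fermat.Agent.S40x.R2.NodeCover.InertiaCard

set_option autoImplicit false
set_option linter.unusedSectionVars false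

noncomputable section

namespace Fermat.Agent.S40x.R2.NodeCover.InertiaIndex

open HahnSeries IntermediateField
open Fermat.Agent.S40x.R2.Cover Fermat.Agent.S40x.R2.Cover.CoverDatum
open Fermat.Agent.S40x.W.G1 Fermat.Agent.S40x.R2.NodeCover.InertiaCard

local notation "Qb" => AlgebraicClosure ℚ

variable {F : IntermediateField Qb (LaurentSeries Qb)} {p : ℕ} (D : CoverDatum F p)
variable (P : ValuationSubring Qb) (hP : P.LiesOverPrime p)

include hP in
/-- **`[I : G1] = p - 1`.** -/
theorem natCard_quotient_G1 :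
    Nat.card (↥(P.inertiaSubgroupIn ℚ) ⧸ D.G1 (rhoOfSubgroup (P.inertiaSubgroupIn ℚ))) = p - 1 := by
  classical
  set ρ := rhoOfSubgroup (P.inertiaSubgroupIn ℚ) with hρdef
  have hp := D.prime
  have hζ := D.hζ
  have hmem : ∀ q : ↥(P.inertiaSubgroupIn ℚ) ⧸ D.G1 ρ, D.chi ρ q ∈ conjSet P p D.ζ := by
    intro q
    induction q using QuotientGroup.induction_on with
    | H g =>
      rw [chi_mk, mem_conjSet hp hζ]
      exact ⟨g.1, g.2, rfl⟩
  let f : (↥(P.inertiaSubgroupIn ℚ) ⧸ D.G1 ρ) → (conjSet P p D.ζ) := fun q => ⟨D.chi ρ q, hmem q⟩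
  have hf : Function.Bijective f := by
    constructor
    · intro a b hab
      exact D.chi_injective ρ (congrArg Subtype.val hab)
    · rintro ⟨t, ht⟩
      obtain ⟨σ, hσ, rfl⟩ := (mem_conjSet hp hζ).mp ht
      exact ⟨QuotientGroup.mk ⟨σ, hσ⟩, Subtype.ext rfl⟩
  rw [Nat.card_congr (Equiv.ofBijective f hf), Nat.card_eq_fintype_card, Fintype.card_coe,
    card_conjSet hp hP hζ]

include hP in
/-- the field `card` of `ASDatum`, for any `Fintype` structure on the quotient. -/
theorem card_quotient_G1_add_one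
    [Fintype (↥(P.inertiaSubgroupIn ℚ) ⧸ D.G1 (rhoOfSubgroup (P.inertiaSubgroupIn ℚ)))] :
    Fintype.card (↥(P.inertiaSubgroupIn ℚ) ⧸ D.G1 (rhoOfSubgroup (P.inertiaSubgroupIn ℚ))) + 1 =
      p := by
  rw [← Nat.card_eq_fintype_card, natCard_quotient_G1 D P hP]
  exact Nat.sub_add_cancel D.prime.one_le

end Fermat.Agent.S40x.R2.NodeCover.InertiaIndex
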