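/-
P-S44/S40, block C3-ET / B4 (helper2): Artin-Schreier algebra lemmas, Mathlib only.

* `natDegree_eq_zero_of_taylor_one_eq` : over a ring of characteristic `p`, a polynomial of degree
  `< p` with `P(X+1) = P` is constant (no domain hypothesis);
* `IsFreeMonogenic S p T` : `Q` is free over `S` on `1, T, …, T^(p-1)` (polynomial form);
* `IsFreeMonogenic.fixed_mem_range` : Artin-Schreier invariants (`σ T = T + 1`);
* `exists_natCast_eq_of_pow_eq_self` : in a local ring of characteristic `p`, `t^p = t` forces
  `t ∈ ℕ`;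
* `IsFreeMonogenic.exists_shift` : an `S`-algebra endomorphism `h` commuting with `σ` on `T`
  satisfies `h T = T + c`, `c ∈ ℕ`.
-/
import Mathlib

set_option autoImplicit false

namespace Fermat.Agent.S40x.R2.NodeCover

open Polynomial IsLocalRing

section Taylor

variable {S : Type*} [CommRing S]

/-- coefficient `d` of `P(X+1)` for `natDegree P ≤ d + 1` is `a_d + (d+1) a_(d+1)`. -/
theorem coeff_taylor_one (P : S[X]) (d : ℕ) (hd : P.natDegree ≤ d + 1) :
    (taylor 1 P).coeff d = P.coeff d + ((d + 1 : ℕ) : S) * P.coeff (d + 1) := by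
  rw [taylor_coeff, eval_eq_sum_range' (n := 2)]
  · simp only [Finset.sum_range_succ, Finset.sum_range_zero, hasseDeriv_coeff, one_pow, mul_one,
      zero_add]
    have h2 : (1 + d).choose d = d + 1 := by
      rw [add_comm]; exact Nat.choose_succ_self_right d
    rw [h2]
    simp [add_comm]
  · have := natDegree_hasseDeriv_le P d
    omega

end Taylor

section TaylorFixed

variable {S : Type*} [CommRing S]

/-- in characteristic `p`, a natural number `0 < n < p` is cancellable. -/
theorem eq_zero_of_natCast_mul_eq_zero {p : ℕ} (hp : p.Prime) [CharP S p] {n : ℕ} (hn0 : 0 < n)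
    (hnp : n < p) {a : S} (h : (n : S) * a = 0) : a = 0 := by
  have hcop : Nat.Coprime n p := (Nat.coprime_of_lt_prime hn0.ne' hnp hp).symm
  obtain ⟨m, -, hm⟩ := Nat.exists_mul_mod_eq_one_of_coprime hcop hp.one_lt
  have h1 : ((n * m : ℕ) : S) = 1 := by
    have h2 : n * m = p * (n * m / p) + 1 := by
      have := Nat.div_add_mod (n * m) p
      omega
    rw [h2]
    push_cast
    rw [CharP.cast_eq_zero S p]
    ring
  calc a = ((n * m : ℕ) : S) * a := by rw [h1, one_mul]
    _ = (m : S) * ((n : S) * a) := by push_cast; ring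
    _ = 0 := by rw [h, mul_zero]

/-- a polynomial of degree `< p` over a ring of characteristic `p` with `P(X+1) = P` is constant -/
theorem natDegree_eq_zero_of_taylor_one_eq {p : ℕ} (hp : p.Prime) [CharP S p] (P : S[X])
    (hdeg : P.natDegree < p) (h : taylor 1 P = P) : P.natDegree = 0 := by
  by_contra hne
  obtain ⟨d, hd⟩ : ∃ d, P.natDegree = d + 1 := ⟨P.natDegree - 1, by omega⟩
  have h1 := coeff_taylor_one P d (by omega)
  rw [h] at h1
  have h2 : ((d + 1 : ℕ) : S) * P.coeff (d + 1) = 0 := by
    have := h1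
    linear_combination -this
  have h3 := eq_zero_of_natCast_mul_eq_zero (S := S) hp (Nat.succ_pos d) (by omega) h2
  have h4 : P.leadingCoeff = 0 := by rw [leadingCoeff, hd]; exact h3
  rw [leadingCoeff_eq_zero] at h4
  rw [h4] at hd
  simp at hd

end TaylorFixed

/-- `Q` is free over `S` on `1, T, …, T^(p-1)` (polynomial form). -/
structure IsFreeMonogenic (S : Type*) {Q : Type*} [CommRing S] [CommRing Q] [Algebra S Q]
    (p : ℕ) (T : Q) : Prop where
  span : ∀ x : Q, ∃ P : S[X], P.natDegree < p ∧ x = aeval T P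
  indep : ∀ P : S[X], P.natDegree < p → aeval T P = 0 → P = 0

section Invariants

variable {S Q : Type*} [CommRing S] [CommRing Q] [Algebra S Q]

/-- **Artin-Schreier invariants**: if `Q` is `S`-free on `1, T, …, T^(p-1)`, `S` has characteristic
`p`, and `σ` is an `S`-algebra endomorphism with `σ T = T + 1`, then the `σ`-fixed elements of `Q`
are the elements of `S`. -/
theorem IsFreeMonogenic.fixed_mem_range {p : ℕ} (hp : p.Prime) [CharP S p] {T : Q}
    (hT : IsFreeMonogenic S p T) (σ : Q →ₐ[S] Q) (hσ : σ T = T + 1) {t : Q} (ht : σ t = t) :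
    ∃ s : S, t = algebraMap S Q s := by
  obtain ⟨P, hPdeg, rfl⟩ := hT.span t
  have h1 : σ (aeval T P) = aeval T (taylor 1 P) := by
    rw [← aeval_algHom_apply, hσ, taylor_apply, aeval_comp]
    simp
  have h2 : aeval T (taylor 1 P - P) = 0 := by rw [map_sub, ← h1, ht, sub_self]
  have hdeg : (taylor 1 P - P).natDegree < p := by
    refine lt_of_le_of_lt (natDegree_sub_le _ _) ?_
    rw [natDegree_taylor, max_self]
    exact hPdeg
  have h3 : taylor 1 P - P = 0 := hT.indep _ hdeg h2
  have h4 := natDegree_eq_zero_of_taylor_one_eq hp P hPdeg (sub_eq_zero.mp h3)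
  refine ⟨P.coeff 0, ?_⟩
  conv_lhs => rw [eq_C_of_natDegree_eq_zero h4]
  simp

end Invariants

section LocalFp

variable {S : Type*} [CommRing S] [IsLocalRing S]

/-- in a local ring of characteristic `p`, a solution of `t ^ p = t` is a natural number. -/
theorem exists_natCast_eq_of_pow_eq_self {p : ℕ} (hp : p.Prime) [CharP S p] {t : S}
    (ht : t ^ p = t) : ∃ c : ℕ, t = c := by
  have : Fact p.Prime := ⟨hp⟩
  have : CharP (ResidueField S) p := by
    rw [CharP.charP_iff_prime_eq_zero hp, ← map_natCast (residue S), CharP.cast_eq_zero S p,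
      map_zero]
  have h1 : residue S t ^ p = residue S t := by rw [← map_pow, ht]
  have h2 : residue S t ∈ (⊥ : Subfield (ResidueField S)) :=
    (Subfield.mem_bot_iff_pow_eq_self (ResidueField S) p).mpr h1
  rw [mem_bot_iff_intCast p] at h2
  obtain ⟨n, hn⟩ := h2
  -- replace the integer by a natural number
  obtain ⟨c, hc⟩ : ∃ c : ℕ, ((c : ℤ) : ResidueField S) = (n : ResidueField S) := by
    refine ⟨(n % p).toNat, ?_⟩
    have hpos : (0 : ℤ) ≤ n % p := Int.emod_nonneg _ (by exact_mod_cast hp.ne_zero)
    rw [Int.toNat_of_nonneg hpos]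
    have h3 : n = n % p + p * (n / p) := (Int.emod_add_mul_ediv n p).symm
    conv_rhs => rw [h3]
    push_cast
    rw [CharP.cast_eq_zero (ResidueField S) p]
    ring
  set m : S := t - c with hm
  have hmem : m ∈ maximalIdeal S := by
    rw [← residue_eq_zero_iff, hm, map_sub, map_natCast, ← hn, ← hc]
    simp
  -- `(c + m)^p = c + m` gives `m^p = m`
  have h4 : m ^ p = m := by
    have h5 : ∀ c : ℕ, (c : S) ^ p = c := by
      intro c
      induction c with
      | zero => simp [hp.ne_zero]
      | succ c ih => push_cast; rw [add_pow_char, ih, one_pow]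
    have h5 := h5 c
    have h6 : t = c + m := by rw [hm]; ring
    have h7 : (↑c + m) ^ p = (c : S) ^ p + m ^ p := add_pow_char _ _ _
    rw [h6, h7, h5] at ht
    exact add_left_cancel ht
  -- `m (m^(p-1) - 1) = 0` with the second factor a unit
  have h8 : m * (1 - m ^ (p - 1)) = 0 := by
    have : m * m ^ (p - 1) = m ^ p := by
      rw [← pow_succ']
      congr 1
      have := hp.one_lt; omega
    rw [mul_sub, mul_one, this, h4, sub_self]
  have hunit : IsUnit (1 - m ^ (p - 1)) := by
    have hmem2 : m ^ (p - 1) ∈ maximalIdeal S :=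
      Ideal.pow_mem_of_mem _ hmem _ (by have := hp.one_lt; omega)
    have := IsLocalRing.isUnit_one_sub_self_of_mem_nonunits _ hmem2
    exact this
  have h9 : m = 0 := hunit.mul_left_eq_zero.mp h8
  exact ⟨c, by rw [← sub_eq_zero]; exact h9⟩

end LocalFp

section Shift

variable {S Q : Type*} [CommRing S] [CommRing Q] [Algebra S Q]

theorem IsFreeMonogenic.algebraMap_injective {p : ℕ} (hp : 0 < p) {T : Q}
    (hT : IsFreeMonogenic S p T) : Function.Injective (algebraMap S Q) := by
  rw [injective_iff_map_eq_zero]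
  intro s hs
  have := hT.indep (C s) (by simpa using hp) (by simpa using hs)
  simpa using this

/-- **Shift lemma**: `S` local of characteristic `p`, `Q` free over `S` on `1, T, …, T^(p-1)` with
`T^p - T ∈ S`; `σ, h` are `S`-algebra endomorphisms of `Q`, `σ T = T + 1` and `σ (h T) = h (σ T)`.
Then `h T = T + c` for a natural number `c`. -/
theorem IsFreeMonogenic.exists_shift [IsLocalRing S] {p : ℕ} (hp : p.Prime) [CharP S p] {T : Q}
    (hT : IsFreeMonogenic S p T) {b : S} (hb : T ^ p - T = algebraMap S Q b)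
    (σ h : Q →ₐ[S] Q) (hσ : σ T = T + 1) (hcomm : σ (h T) = h (σ T)) :
    ∃ c : ℕ, h T = T + c := by
  have : Fact p.Prime := ⟨hp⟩
  have hinj := hT.algebraMap_injective hp.pos
  have : CharP Q p := charP_of_injective_algebraMap hinj p
  set t : Q := h T - T with ht
  have h1 : σ t = t := by
    rw [ht, map_sub, hcomm, hσ, map_add, map_one]
    ring
  obtain ⟨s, hs⟩ := hT.fixed_mem_range hp σ hσ h1
  have h2 : (h T) ^ p - h T = algebraMap S Q b := by
    rw [← map_pow, ← map_sub, hb, AlgHom.commutes]
  have h3 : t ^ p = t := by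
    rw [ht, sub_pow_char]
    linear_combination h2 - hb
  have h4 : s ^ p = s := by
    apply hinj
    rw [map_pow, ← hs, h3]
  obtain ⟨c, hc⟩ := exists_natCast_eq_of_pow_eq_self hp h4
  refine ⟨c, ?_⟩
  have : h T = T + t := by rw [ht]; ring
  rw [this, hs, hc, map_natCast]

end Shift

end Fermat.Agent.S40x.R2.NodeCover
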