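/-
P-S44/S40, block C3-ET / B4 (helper2): K0-descent of the node ring of the `Z/p`-cover, CLAIM A.

`ASData R B p` (hypothesis style): `R` = regular node ring of `X` over `O0` (only used: local, `p` in
the maximal ideal), `B = R[ϖ][θ]` with `ϖ^(p-1) = -p`, `B / ϖ B` free over `R / p R` on
`1, θ, …, θ^(p-1)` and `θ^p - θ = b mod ϖ` (Artin-Schreier normal form (AS)).

* `ASData.exists_shift_mem` : an `R`-algebra endomorphism preserving `ϖ B` and commuting with `σ`
  (`σ θ = θ + 1 mod ϖ`) moves `θ` by a natural number modulo `ϖ B`;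
* `ASData.smul_sub_mem` (CLAIM A) : a finite group of order prime to `p` of such automorphisms
  fixes `θ` modulo `ϖ B`.
Mathlib only.
-/
import Fermat.Agent.S40x.R2.NodeCover.AS

set_option autoImplicit false
set_option linter.style.haveILetI false

namespace Fermat.Agent.S40x.R2.NodeCover

open Polynomial IsLocalRing

/-- **Data of the Artin-Schreier presentation of the cover over `R1 = R[ϖ]`**, hypothesis style.
`R` = regular node ring of `X` over `O0` (only used: local ring with `p` in the maximal ideal),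
`B` = `R[ϖ][θ]` (think: inside `F_{L,1}`), `I = ϖ B`. -/
structure ASData (R B : Type*) [CommRing R] [CommRing B] [Algebra R B] (p : ℕ) where
  ϖ : B
  θ : B
  b : R
  hϖ : ϖ ^ (p - 1) = -(p : B)
  /-- `B / ϖ B` is spanned over `R` by `1, θ, …, θ^(p-1)` -/
  span : ∀ x : B, ∃ P : R[X], P.natDegree < p ∧ x - aeval θ P ∈ Ideal.span {ϖ}
  /-- … and freely so over `R / p R` -/
  indep : ∀ P : R[X], P.natDegree < p → aeval θ P ∈ Ideal.span {ϖ} →
    ∀ k, P.coeff k ∈ Ideal.span {(p : R)}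
  /-- Artin-Schreier equation mod `ϖ` -/
  hAS : θ ^ p - θ - algebraMap R B b ∈ Ideal.span {ϖ}

variable {R B : Type*} [CommRing R] [CommRing B] [Algebra R B] {p : ℕ}

namespace ASData

/-- the ideal `ϖ B` -/
def I (D : ASData R B p) : Ideal B := Ideal.span {D.ϖ}

theorem natCast_mem_I (D : ASData R B p) (hp : p.Prime) : (p : B) ∈ D.I := by
  have h1 : (p : B) = D.ϖ * (-(D.ϖ ^ (p - 2))) := by
    have : D.ϖ * D.ϖ ^ (p - 2) = D.ϖ ^ (p - 1) := by
      rw [← pow_succ']
      congr 1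
      have := hp.two_le
      omega
    rw [mul_neg, this, D.hϖ, neg_neg]
  rw [h1]
  exact Ideal.mul_mem_right _ _ (Ideal.subset_span rfl)

theorem span_le_comap (D : ASData R B p) (hp : p.Prime) :
    Ideal.span {(p : R)} ≤ Ideal.comap (algebraMap R B) D.I := by
  rw [Ideal.span_le]
  intro x hx
  rw [Set.mem_singleton_iff] at hx
  rw [hx]
  change algebraMap R B (p : R) ∈ D.I
  rw [map_natCast]
  exact D.natCast_mem_I hp

/-- elements of `R` lying in `ϖ B` are divisible by `p` -/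
theorem mem_span_of_algebraMap_mem (D : ASData R B p) (hp : p.Prime) {r : R}
    (hr : algebraMap R B r ∈ D.I) : r ∈ Ideal.span {(p : R)} := by
  have := D.indep (C r) (by simpa using hp.pos) (by simpa [ASData.I] using hr) 0
  simpa using this

/-- natural numbers lying in `ϖ B` are divisible by `p` -/
theorem dvd_of_natCast_mem [IsLocalRing R] (D : ASData R B p) (hp : p.Prime)
    (hpR : (p : R) ∈ maximalIdeal R) {m : ℕ} (hm : (m : B) ∈ D.I) : p ∣ m := by
  by_contra hnd
  have hcop : Nat.Coprime m p := (hp.coprime_iff_not_dvd.mpr hnd).symm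
  have h1 : (m : R) ∈ Ideal.span {(p : R)} := by
    apply D.mem_span_of_algebraMap_mem hp
    rw [map_natCast]
    exact hm
  have h2 : (p : R) ∈ Ideal.span {(p : R)} := Ideal.subset_span rfl
  -- Bezout
  have h3 : (1 : R) ∈ Ideal.span {(p : R)} := by
    have hb := Nat.gcd_eq_gcd_ab m p
    rw [hcop.gcd_eq_one] at hb
    have : (1 : R) = (m : R) * (Nat.gcdA m p : R) + (p : R) * (Nat.gcdB m p : R) := by
      have := congrArg (fun z : ℤ => (z : R)) hb
      simpa using this
    rw [this]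
    exact Ideal.add_mem _ (Ideal.mul_mem_right _ _ h1) (Ideal.mul_mem_right _ _ h2)
  have h4 : Ideal.span {(p : R)} = ⊤ := (Ideal.eq_top_iff_one _).mpr h3
  rw [Ideal.span_singleton_eq_top] at h4
  exact (mem_nonunits_iff.mp ((mem_maximalIdeal _).mp hpR)) h4

section Core

variable [IsLocalRing R] (D : ASData R B p)

/-- **core of Claim A**: an `R`-algebra endomorphism `h` of `B` preserving `ϖ B` and commuting with
`σ` on `θ` (where `σ θ = θ + 1 mod ϖ`) satisfies `h θ = θ + c mod ϖ B` for a natural number `c`. -/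
theorem exists_shift_mem (hp : p.Prime) (hpR : (p : R) ∈ maximalIdeal R)
    (σ h : B →ₐ[R] B) (hσI : ∀ x ∈ D.I, σ x ∈ D.I) (hσθ : σ D.θ - D.θ - 1 ∈ D.I)
    (hhI : ∀ x ∈ D.I, h x ∈ D.I) (hcomm : σ (h D.θ) = h (σ D.θ)) :
    ∃ c : ℕ, h D.θ - D.θ - c ∈ D.I := by
  classical
  set J : Ideal R := Ideal.span {(p : R)} with hJ
  letI : Algebra (R ⧸ J) (B ⧸ D.I) :=
    Ideal.Quotient.algebraQuotientOfLEComap (D.span_le_comap hp)
  have hJne : J ≠ ⊤ := by
    rw [hJ, Ne, Ideal.span_singleton_eq_top]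
    exact mem_nonunits_iff.mp ((mem_maximalIdeal _).mp hpR)
  haveI : Nontrivial (R ⧸ J) := Ideal.Quotient.nontrivial_iff.mpr hJne
  haveI : IsLocalRing (R ⧸ J) := .of_surjective' _ Ideal.Quotient.mk_surjective
  haveI : CharP (R ⧸ J) p := by
    rw [CharP.charP_iff_prime_eq_zero hp, ← map_natCast (Ideal.Quotient.mk J)]
    exact Ideal.Quotient.eq_zero_iff_mem.mpr (Ideal.subset_span rfl)
  have halg : ∀ r : R, algebraMap (R ⧸ J) (B ⧸ D.I) (Ideal.Quotient.mk J r) =
      Ideal.Quotient.mk D.I (algebraMap R B r) := fun r => rfl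
  -- induced maps on the quotient
  let bar : (f : B →ₐ[R] B) → (∀ x ∈ D.I, f x ∈ D.I) → (B ⧸ D.I) →ₐ[R ⧸ J] (B ⧸ D.I) :=
    fun f hf =>
    { Ideal.quotientMap D.I f.toRingHom (fun x hx => hf x hx) with
      commutes' := by
        intro s
        obtain ⟨r, rfl⟩ := Ideal.Quotient.mk_surjective s
        rw [halg]
        change Ideal.quotientMap D.I f.toRingHom _ (Ideal.Quotient.mk D.I (algebraMap R B r)) = _
        rw [Ideal.quotientMap_mk]
        simp }
  have hbar : ∀ (f : B →ₐ[R] B) (hf : ∀ x ∈ D.I, f x ∈ D.I) (x : B),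
      bar f hf (Ideal.Quotient.mk D.I x) = Ideal.Quotient.mk D.I (f x) := fun f hf x => rfl
  set T : B ⧸ D.I := Ideal.Quotient.mk D.I D.θ with hT
  -- evaluation of reduced polynomials
  have heval : ∀ P : R[X], aeval T (P.map (Ideal.Quotient.mk J)) =
      Ideal.Quotient.mk D.I (aeval D.θ P) := by
    intro P
    rw [aeval_def, eval₂_map, aeval_def, hom_eval₂]
    rfl
  have hfree : IsFreeMonogenic (R ⧸ J) p T := by
    constructor
    · intro x
      obtain ⟨x, rfl⟩ := Ideal.Quotient.mk_surjective x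
      obtain ⟨P, hdeg, hP⟩ := D.span x
      refine ⟨P.map (Ideal.Quotient.mk J), lt_of_le_of_lt natDegree_map_le hdeg, ?_⟩
      rw [heval, eq_comm, ← sub_eq_zero, ← map_sub, Ideal.Quotient.eq_zero_iff_mem, ← neg_sub]
      exact neg_mem hP
    · intro Pb hdeg hPb
      obtain ⟨P, hPmap, hPdeg⟩ := exists_natDegree_eq_of_mem_lifts
        (mem_lifts_of_surjective (f := Ideal.Quotient.mk J) Ideal.Quotient.mk_surjective Pb)
      rw [← hPmap, heval, Ideal.Quotient.eq_zero_iff_mem] at hPb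
      have hc := D.indep P (by rw [hPdeg]; exact hdeg) hPb
      rw [← hPmap]
      ext k
      rw [coeff_map, coeff_zero, Ideal.Quotient.eq_zero_iff_mem]
      exact hc k
  have hb : T ^ p - T = algebraMap (R ⧸ J) (B ⧸ D.I) (Ideal.Quotient.mk J D.b) := by
    rw [halg, hT, ← map_pow, ← map_sub, ← sub_eq_zero, ← map_sub, Ideal.Quotient.eq_zero_iff_mem]
    exact D.hAS
  have hσT : bar σ hσI T = T + 1 := by
    rw [hT, hbar, ← map_one (Ideal.Quotient.mk D.I), ← map_add, ← sub_eq_zero, ← map_sub,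
      Ideal.Quotient.eq_zero_iff_mem]
    have : σ D.θ - (D.θ + 1) = σ D.θ - D.θ - 1 := by ring
    rw [this]
    exact hσθ
  have hc : bar σ hσI (bar h hhI T) = bar h hhI (bar σ hσI T) := by
    rw [hT, hbar, hbar, hbar, hbar, hcomm]
  obtain ⟨c, hc'⟩ := hfree.exists_shift hp hb (bar σ hσI) (bar h hhI) hσT hc
  refine ⟨c, ?_⟩
  rw [hT, hbar] at hc'
  rw [← Ideal.Quotient.eq_zero_iff_mem, map_sub, map_sub, hc', map_natCast]
  ring

/-- **Claim A**: a finite group `G` of order prime to `p` acting on `B` by `R`-algebra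
automorphisms which preserve `ϖ B` and commute with `σ` (where `σ θ = θ + 1 mod ϖ`,
`σ (ϖ B) ⊆ ϖ B`) acts trivially on `θ` modulo `ϖ B`. -/
theorem smul_sub_mem (hp : p.Prime) (hpR : (p : R) ∈ maximalIdeal R)
    (σ : B →ₐ[R] B) (hσI : ∀ x ∈ D.I, σ x ∈ D.I) (hσθ : σ D.θ - D.θ - 1 ∈ D.I)
    {G : Type*} [Group G] [Fintype G] (ρ : G →* (B ≃ₐ[R] B))
    (hρI : ∀ g, ∀ x ∈ D.I, ρ g x ∈ D.I) (hcomm : ∀ g x, σ (ρ g x) = ρ g (σ x))
    (hcard : (Fintype.card G).Coprime p) (g : G) :
    ρ g D.θ - D.θ ∈ D.I := by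
  obtain ⟨c, hc⟩ := D.exists_shift_mem hp hpR σ (ρ g : B →ₐ[R] B) hσI hσθ (hρI g)
    (hcomm g D.θ)
  have hc' : ρ g D.θ - D.θ - c ∈ D.I := hc
  have hpow : ∀ n : ℕ, ρ (g ^ n) D.θ - D.θ - ((n * c : ℕ) : B) ∈ D.I := by
    intro n
    induction n with
    | zero => simp
    | succ n ih =>
      have h1 : ρ (g ^ (n + 1)) D.θ = ρ g (ρ (g ^ n) D.θ) := by
        rw [pow_succ', map_mul]
        rfl
      have h2 : ρ (g ^ (n + 1)) D.θ - D.θ - (((n + 1) * c : ℕ) : B) =
          ρ g (ρ (g ^ n) D.θ - D.θ - ((n * c : ℕ) : B)) + (ρ g D.θ - D.θ - c) := by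
        rw [h1, map_sub, map_sub, map_natCast]
        push_cast
        ring
      rw [h2]
      exact Ideal.add_mem _ (hρI g _ ih) hc'
  have h3 := hpow (Fintype.card G)
  rw [pow_card_eq_one, map_one] at h3
  have h4 : ((Fintype.card G * c : ℕ) : B) ∈ D.I := by
    have : ((Fintype.card G * c : ℕ) : B) =
        -((1 : B ≃ₐ[R] B) D.θ - D.θ - ((Fintype.card G * c : ℕ) : B)) := by
      simp
    rw [this]
    exact neg_mem h3
  have h5 : p ∣ Fintype.card G * c := D.dvd_of_natCast_mem hp hpR h4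
  have h6 : p ∣ c := (Nat.Coprime.dvd_mul_left hcard.symm).mp h5
  obtain ⟨k, rfl⟩ := h6
  have h7 : ((p * k : ℕ) : B) ∈ D.I := by
    push_cast
    exact Ideal.mul_mem_right _ _ (D.natCast_mem_I hp)
  have : ρ g D.θ - D.θ = (ρ g D.θ - D.θ - ((p * k : ℕ) : B)) + ((p * k : ℕ) : B) := by ring
  rw [this]
  exact Ideal.add_mem _ hc' h7

end Core

end ASData

end Fermat.Agent.S40x.R2.NodeCover
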