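/-
P-S44/S40, block C3-ET / B4 (helper2): `∏_{a ∈ 𝔽_p} (y - a) = y^p - y` in any commutative ring with
`p = 0`. Mathlib only.
-/
import Mathlib

set_option autoImplicit false

namespace Fermat.Agent.S40x.R2.NodeCover

open Polynomial

/-- `∏_{a ∈ 𝔽_p} (X - a) = X^p - X` over `ZMod p`. -/
theorem prod_X_sub_C_zmod (p : ℕ) [Fact p.Prime] :
    ∏ a : ZMod p, (X - C a) = (X ^ p - X : (ZMod p)[X]) := by
  have hroots : (X ^ p - X : (ZMod p)[X]).roots = Finset.univ.val := by
    have := FiniteField.roots_X_pow_card_sub_X (ZMod p)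
    rwa [ZMod.card] at this
  have hmonic : (X ^ p - X : (ZMod p)[X]).Monic :=
    monic_X_pow_sub (by rw [degree_X]; exact_mod_cast (Fact.out : p.Prime).one_lt)
  have hcard : Multiset.card (X ^ p - X : (ZMod p)[X]).roots =
      (X ^ p - X : (ZMod p)[X]).natDegree := by
    rw [hroots, FiniteField.X_pow_card_sub_X_natDegree_eq _ (Fact.out : p.Prime).one_lt]
    simp
  have := prod_multiset_X_sub_C_of_monic_of_roots_card_eq hmonic hcard
  rw [hroots] at this
  rw [← this]
  rfl

/-- in a commutative ring with `p = 0`: `∏_{a ∈ 𝔽_p} (y - a) = y^p - y`. -/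
theorem prod_sub_natCast_eq {A : Type*} [CommRing A] {p : ℕ} [Fact p.Prime] (hpA : (p : A) = 0)
    (y : A) : ∏ a : ZMod p, (y - (a.val : A)) = y ^ p - y := by
  rcases subsingleton_or_nontrivial A with h | h
  · exact Subsingleton.elim _ _
  have hp : p.Prime := Fact.out
  have : CharP A p := (CharP.charP_iff_prime_eq_zero hp).mpr hpA
  have h1 := congrArg (eval₂ (ZMod.castHom (dvd_refl p) A) y) (prod_X_sub_C_zmod p)
  rw [eval₂_finsetProd] at h1
  simp only [eval₂_sub, eval₂_X, eval₂_C, eval₂_pow] at h1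
  rw [← h1]
  refine Finset.prod_congr rfl fun a _ => ?_
  congr 1
  simp [ZMod.natCast_val]

end Fermat.Agent.S40x.R2.NodeCover
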