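/-
P-S44/S40, block C3-ET / B4 (helper2): the descended generator `θ0 = - ∑ g, g θ`, its invariance,
`θ0 = θ mod ϖ B`, and iterates of `σ`. Mathlib only.
-/
import Fermat.Agent.S40x.R2.NodeCover.Descent1
import Fermat.Agent.S40x.R2.NodeCover.Prod

set_option autoImplicit false
set_option linter.style.haveILetI false

namespace Fermat.Agent.S40x.R2.NodeCover

open Polynomial IsLocalRing

variable {R B : Type*} [CommRing R] [CommRing B] [Algebra R B] {p : ℕ}

namespace ASData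

section Theta0

variable (D : ASData R B p) {G : Type*} [Group G] [Fintype G] (ρ : G →* (B ≃ₐ[R] B))

/-- the descended generator `θ0 = - ∑ g, g θ` -/
noncomputable def θ0 : B := - ∑ g, ρ g D.θ

theorem smul_θ0 (g : G) : ρ g (D.θ0 ρ) = D.θ0 ρ := by
  unfold θ0
  rw [map_neg, map_sum]
  congr 1
  have : ∀ h : G, ρ g (ρ h D.θ) = ρ (g * h) D.θ := fun h => by rw [map_mul]; rfl
  simp only [this]
  exact Fintype.sum_equiv (Equiv.mulLeft g) _ _ (fun h => rfl)

theorem θ0_sub_mem (hp : p.Prime) (hcard : Fintype.card G = p - 1)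
    (hA : ∀ g, ρ g D.θ - D.θ ∈ D.I) : D.θ0 ρ - D.θ ∈ D.I := by
  have h1 : D.θ0 ρ - D.θ = -(∑ g, (ρ g D.θ - D.θ)) - (p : B) * D.θ := by
    unfold θ0
    rw [Finset.sum_sub_distrib, Finset.sum_const, Finset.card_univ, hcard]
    have : ((p - 1 : ℕ) : B) = (p : B) - 1 := by
      rw [Nat.cast_sub hp.one_le, Nat.cast_one]
    rw [nsmul_eq_mul, this]
    ring
  rw [h1]
  refine Ideal.sub_mem _ (neg_mem (Ideal.sum_mem _ fun g _ => hA g)) ?_
  exact Ideal.mul_mem_right _ _ (D.natCast_mem_I hp)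

end Theta0

section Iterate

variable (D : ASData R B p) (σ : B →ₐ[R] B) (t : B)

/-- `σ^n t = t + n mod ϖ B` when `t = θ mod ϖ B` -/
theorem pow_apply_sub_mem (hσI : ∀ x ∈ D.I, σ x ∈ D.I) (hσθ : σ D.θ - D.θ - 1 ∈ D.I)
    (ht : t - D.θ ∈ D.I) (n : ℕ) : (σ ^ n) t - D.θ - (n : B) ∈ D.I := by
  induction n with
  | zero => simpa using ht
  | succ n ih =>
    have h1 : (σ ^ (n + 1)) t = σ ((σ ^ n) t) := by rw [pow_succ']; rfl
    have h2 : (σ ^ (n + 1)) t - D.θ - ((n + 1 : ℕ) : B) =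
        σ ((σ ^ n) t - D.θ - (n : B)) + (σ D.θ - D.θ - 1) := by
      rw [h1, map_sub, map_sub, map_natCast]
      push_cast
      ring
    rw [h2]
    exact Ideal.add_mem _ (hσI _ ih) hσθ

theorem pow_mod_apply {p : ℕ} (hσp : (σ ^ p) t = t) (n : ℕ) : (σ ^ (n % p)) t = (σ ^ n) t := by
  have h1 : ∀ k : ℕ, (σ ^ (p * k)) t = t := by
    intro k
    induction k with
    | zero => simp
    | succ k ih =>
      rw [mul_add, mul_one, pow_add]
      change (σ ^ (p * k)) ((σ ^ p) t) = t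
      rw [hσp, ih]
  conv_rhs => rw [← Nat.mod_add_div n p, pow_add]
  change _ = (σ ^ (n % p)) ((σ ^ (p * (n / p))) t)
  rw [h1]

end Iterate

end ASData

end Fermat.Agent.S40x.R2.NodeCover
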