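/-
P-S44/S40, block C3-ET / B4 (helper2): `orbitPoly σ t = ∏_{a ∈ ℤ/p} (X - σ^a t)`, fixed by `σ`
(when `σ^p t = t`) and by every ring endomorphism commuting with `σ` and fixing `t`. Mathlib only.
-/
import Fermat.Agent.S40x.R2.NodeCover.Descent2

set_option autoImplicit false
set_option linter.style.haveILetI false

namespace Fermat.Agent.S40x.R2.NodeCover

open Polynomial IsLocalRing

variable {R B : Type*} [CommRing R] [CommRing B] [Algebra R B] {p : ℕ}

section OrbitPoly

variable [Fact p.Prime] (σ : B →ₐ[R] B) (t : B)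

/-- `∏_{a ∈ ℤ/p} (X - σ^a t)` -/
noncomputable def orbitPoly : B[X] := ∏ a : ZMod p, (X - C ((σ ^ a.val) t))

theorem orbitPoly_monic : (orbitPoly (p := p) σ t).Monic :=
  monic_prod_of_monic _ _ fun a _ => monic_X_sub_C _

theorem orbitPoly_natDegree [Nontrivial B] : (orbitPoly (p := p) σ t).natDegree = p := by
  unfold orbitPoly
  rw [natDegree_prod_of_monic _ _ fun a _ => monic_X_sub_C _]
  simp

theorem eval_orbitPoly : (orbitPoly (p := p) σ t).eval t = 0 := by
  unfold orbitPoly
  rw [eval_prod]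
  apply Finset.prod_eq_zero (Finset.mem_univ (0 : ZMod p))
  simp

/-- `σ` permutes the roots cyclically -/
theorem map_orbitPoly (hσp : (σ ^ p) t = t) :
    (orbitPoly (p := p) σ t).map (σ : B →+* B) = orbitPoly (p := p) σ t := by
  unfold orbitPoly
  rw [Polynomial.map_prod]
  have h1 : ∀ a : ZMod p, (X - C ((σ ^ a.val) t)).map (σ : B →+* B) =
      X - C ((σ ^ (a + 1).val) t) := by
    intro a
    rw [Polynomial.map_sub, map_X, map_C]
    congr 2
    rw [ZMod.val_add, ZMod.val_one, ASData.pow_mod_apply σ t hσp, pow_succ']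
    rfl
  simp only [h1]
  exact Fintype.prod_equiv (Equiv.addRight (1 : ZMod p)) _ _ (fun a => rfl)

/-- an automorphism commuting with `σ` and fixing `t` fixes `orbitPoly` -/
theorem map_orbitPoly_of_comm (τ : B →+* B) (hτ : ∀ x, τ (σ x) = σ (τ x)) (hτt : τ t = t) :
    (orbitPoly (p := p) σ t).map τ = orbitPoly (p := p) σ t := by
  unfold orbitPoly
  rw [Polynomial.map_prod]
  refine Finset.prod_congr rfl fun a _ => ?_
  rw [Polynomial.map_sub, map_X, map_C]
  congr 2
  have : ∀ n : ℕ, τ ((σ ^ n) t) = (σ ^ n) t := by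
    intro n
    induction n with
    | zero => simpa using hτt
    | succ n ih =>
      have h1 : (σ ^ (n + 1)) t = σ ((σ ^ n) t) := by rw [pow_succ']; rfl
      rw [h1, hτ, ih]
  exact this _

end OrbitPoly

end Fermat.Agent.S40x.R2.NodeCover
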