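/-
P-S44/S40, block C3-ET / B4 (helper2): K0-descent of the node ring of the `Z/p`-cover, CLAIM B.

`ASData.exists_descended_poly` : for a group `G` of order `p - 1` (= `Gal(K1/K0)` lifted) acting on
`B = R[ϖ][θ]`, commuting with `σ`, with common fixed ring `R`: `θ0 = - ∑ g, g θ` is `G`-invariant,
`θ0 = θ mod ϖ B`, `σ θ0 = θ0 + 1 mod ϖ B`, and `θ0` is a root of a monic `G0 ∈ R[X]` of degree `p`
with `G0 = X^p - X - b mod p R[X]` (so `G0' = -1 mod p`: `R[X]/(G0)` is finite etale at the closed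
point; consumer = (Et) etale lift of the node ring).  Mathlib only.
-/
import Fermat.Agent.S40x.R2.NodeCover.OrbitPoly

set_option autoImplicit false
set_option linter.style.haveILetI false

namespace Fermat.Agent.S40x.R2.NodeCover

open Polynomial IsLocalRing

variable {R B : Type*} [CommRing R] [CommRing B] [Algebra R B] {p : ℕ}

namespace ASData

variable [IsLocalRing R] (D : ASData R B p)

theorem one_notMem_I (hp : p.Prime) (hpR : (p : R) ∈ maximalIdeal R) : (1 : B) ∉ D.I := by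
  intro h1
  have h2 : (1 : R) ∈ Ideal.span {(p : R)} :=
    D.mem_span_of_algebraMap_mem hp (by rw [map_one]; exact h1)
  have h4 : Ideal.span {(p : R)} = ⊤ := (Ideal.eq_top_iff_one _).mpr h2
  rw [Ideal.span_singleton_eq_top] at h4
  exact (mem_nonunits_iff.mp ((mem_maximalIdeal _).mp hpR)) h4

/-- reduction of `orbitPoly σ t` modulo `ϖ B` when `t = θ mod ϖ B`: it is the Artin-Schreier
polynomial `X^p - X - b`. -/
theorem orbitPoly_sub_coeff_mem [Fact p.Prime] (hpR : (p : R) ∈ maximalIdeal R)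
    (σ : B →ₐ[R] B) (hσI : ∀ x ∈ D.I, σ x ∈ D.I) (hσθ : σ D.θ - D.θ - 1 ∈ D.I)
    (t : B) (ht : t - D.θ ∈ D.I) (k : ℕ) :
    (orbitPoly (p := p) σ t - (X ^ p - X - C (algebraMap R B D.b))).coeff k ∈ D.I := by
  have hp : p.Prime := Fact.out
  set mk := Ideal.Quotient.mk D.I with hmk
  haveI : Nontrivial (B ⧸ D.I) :=
    Ideal.Quotient.nontrivial_iff.mpr ((Ideal.ne_top_iff_one _).mpr (D.one_notMem_I hp hpR))
  have hpQ : ((p : ℕ) : B ⧸ D.I) = 0 := by
    rw [← map_natCast mk]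
    exact Ideal.Quotient.eq_zero_iff_mem.mpr (D.natCast_mem_I hp)
  haveI : CharP (B ⧸ D.I) p := (CharP.charP_iff_prime_eq_zero hp).mpr hpQ
  set T : B ⧸ D.I := mk D.θ with hT
  have hroot : ∀ n : ℕ, mk ((σ ^ n) t) = T + (n : B ⧸ D.I) := by
    intro n
    have := D.pow_apply_sub_mem σ t hσI hσθ ht n
    rw [← Ideal.Quotient.eq_zero_iff_mem, map_sub, map_sub, map_natCast] at this
    rw [hT]
    linear_combination this
  have hTp : T ^ p - T = mk (algebraMap R B D.b) := by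
    rw [hT, ← map_pow, ← map_sub, ← sub_eq_zero, ← map_sub, Ideal.Quotient.eq_zero_iff_mem]
    exact D.hAS
  -- the identity in `(B ⧸ I)[X]`
  have hpoly : (orbitPoly (p := p) σ t).map mk =
      (X ^ p - X - C (algebraMap R B D.b) : B[X]).map mk := by
    unfold orbitPoly
    rw [Polynomial.map_prod]
    have h1 : ∀ a : ZMod p, (X - C ((σ ^ a.val) t)).map mk =
        (X - C T) - ((a.val : ℕ) : (B ⧸ D.I)[X]) := by
      intro a
      rw [Polynomial.map_sub, map_X, map_C, hroot, map_add, map_natCast]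
      ring
    simp only [h1]
    have hpQX : ((p : ℕ) : (B ⧸ D.I)[X]) = 0 := by
      rw [← map_natCast (C : (B ⧸ D.I) →+* (B ⧸ D.I)[X]), hpQ, map_zero]
    rw [prod_sub_natCast_eq hpQX, sub_pow_char, ← map_pow]
    simp only [Polynomial.map_sub, Polynomial.map_pow, map_X, map_C]
    rw [← hTp, map_sub]
    ring
  have h2 : ((orbitPoly (p := p) σ t - (X ^ p - X - C (algebraMap R B D.b))).map mk).coeff k
      = 0 := by
    rw [Polynomial.map_sub, hpoly, sub_self, coeff_zero]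
  rw [coeff_map] at h2
  exact Ideal.Quotient.eq_zero_iff_mem.mp h2

/-- **Claim B**: if `|G| = p - 1`, `σ^p = 1` on `θ0`, and the common fixed points of `σ` and `G`
in `B` are the elements of `R`, then `θ0 = - ∑ g, g θ` is `G`-invariant, `θ0 = θ mod ϖ B`,
`σ θ0 = θ0 + 1 mod ϖ B`, and `θ0` is a root of a monic `G0 ∈ R[X]` of degree `p` with
`G0 = X^p - X - b mod p R[X]`. -/
theorem exists_descended_poly (hp : p.Prime) (hpR : (p : R) ∈ maximalIdeal R)
    (σ : B →ₐ[R] B) (hσI : ∀ x ∈ D.I, σ x ∈ D.I) (hσθ : σ D.θ - D.θ - 1 ∈ D.I)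
    {G : Type*} [Group G] [Fintype G] (ρ : G →* (B ≃ₐ[R] B))
    (hρI : ∀ g, ∀ x ∈ D.I, ρ g x ∈ D.I) (hcomm : ∀ g x, σ (ρ g x) = ρ g (σ x))
    (hcard : Fintype.card G = p - 1)
    (hσp : (σ ^ p) (D.θ0 ρ) = D.θ0 ρ)
    (hfix : ∀ x : B, σ x = x → (∀ g, ρ g x = x) → x ∈ (algebraMap R B).range) :
    (∀ g, ρ g (D.θ0 ρ) = D.θ0 ρ) ∧ D.θ0 ρ - D.θ ∈ D.I ∧ σ (D.θ0 ρ) - D.θ0 ρ - 1 ∈ D.I ∧
    ∃ G0 : R[X], G0.Monic ∧ G0.natDegree = p ∧ aeval (D.θ0 ρ) G0 = 0 ∧
      ∀ k, (G0 - (X ^ p - X - C D.b)).coeff k ∈ Ideal.span {(p : R)} := by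
  haveI : Fact p.Prime := ⟨hp⟩
  have hcop : (Fintype.card G).Coprime p := by
    rw [hcard]
    refine (Nat.coprime_of_lt_prime ?_ ?_ hp).symm
    · have := hp.two_le; omega
    · have := hp.two_le; omega
  have hA := fun g => D.smul_sub_mem hp hpR σ hσI hσθ ρ hρI hcomm hcop g
  have h1 := D.smul_θ0 ρ
  have h2 := D.θ0_sub_mem ρ hp hcard hA
  have h3 : σ (D.θ0 ρ) - D.θ0 ρ - 1 ∈ D.I := by
    have h4 := D.pow_apply_sub_mem σ (D.θ0 ρ) hσI hσθ h2 1
    have h5 : σ (D.θ0 ρ) - D.θ0 ρ - 1 =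
        ((σ ^ 1) (D.θ0 ρ) - D.θ - ((1 : ℕ) : B)) - (D.θ0 ρ - D.θ) := by
      rw [pow_one]; push_cast; ring
    rw [h5]
    exact Ideal.sub_mem _ h4 h2
  refine ⟨h1, h2, h3, ?_⟩
  haveI : Nontrivial B := by
    refine ⟨⟨1, 0, fun h10 => D.one_notMem_I hp hpR ?_⟩⟩
    rw [h10]; exact Ideal.zero_mem _
  set P : B[X] := orbitPoly (p := p) σ (D.θ0 ρ) with hP
  -- the coefficients of `P` are fixed by `σ` and `G`, hence lie in `R`
  have hPσ : P.map (σ : B →+* B) = P := map_orbitPoly σ _ hσp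
  have hPρ : ∀ g, P.map ((ρ g : B →ₐ[R] B) : B →+* B) = P := fun g =>
    map_orbitPoly_of_comm σ _ _ (fun x => (hcomm g x).symm) (h1 g)
  have hlift : P ∈ lifts (algebraMap R B) := by
    rw [lifts_iff_coeff_lifts]
    intro k
    have hk := hfix (P.coeff k)
      (by conv_rhs => rw [← hPσ]
          rw [coeff_map]; rfl)
      (fun g => by
        conv_rhs => rw [← hPρ g]
        rw [coeff_map]; rfl)
    exact hk
  obtain ⟨G0, hmap, hdeg, hmonic⟩ := lifts_and_natDegree_eq_and_monic hlift (orbitPoly_monic σ _)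
  refine ⟨G0, hmonic, by rw [hdeg]; exact orbitPoly_natDegree σ _, ?_, ?_⟩
  · rw [← eval_map_algebraMap, hmap]
    exact eval_orbitPoly σ _
  · intro k
    apply D.mem_span_of_algebraMap_mem hp
    have h6 := D.orbitPoly_sub_coeff_mem hpR σ hσI hσθ (D.θ0 ρ) h2 k
    have h7 : algebraMap R B ((G0 - (X ^ p - X - C D.b)).coeff k) =
        (P - (X ^ p - X - C (algebraMap R B D.b))).coeff k := by
      rw [← coeff_map, Polynomial.map_sub, hmap]
      simp
    rw [h7]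
    exact h6

end ASData

end Fermat.Agent.S40x.R2.NodeCover
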