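/-
C3-ET support (P-S44/S40): contraction and residue-field statements for the localisation of a
flat algebra over a local ring at a prime over the maximal ideal
(application: `R*_s = (R_s[T]/(Q))_(m, T - c)`).  Mathlib only.
-/
import Mathlib

namespace Fermat.Agent.S40x.R2.NodeCover

open IsLocalRing Polynomial

section general

variable {A B : Type*} [CommRing A] [CommRing B] [Algebra A B] [IsLocalRing A]
  (P : Ideal B) [P.IsPrime]

/-- The structure map `A → B_P` is local when `P` lies over the maximal ideal of `A`. -/
theorem isLocalHom_algebraMap_localization_atPrime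
    (hP : maximalIdeal A ≤ P.comap (algebraMap A B)) :
    IsLocalHom (algebraMap A (Localization.AtPrime P)) := by
  constructor
  intro a ha
  by_contra hna
  have ham : a ∈ maximalIdeal A := hna
  have hmem : algebraMap A B a ∈ P := hP ham
  rw [IsScalarTower.algebraMap_apply A B (Localization.AtPrime P),
    IsLocalization.AtPrime.isUnit_to_map_iff (Localization.AtPrime P) P] at ha
  exact ha hmem

/-- The localisation of a flat algebra over a local ring at a prime over the maximal ideal is
faithfully flat. -/
theorem faithfullyFlat_localization_atPrime [Module.Flat A B]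
    (hP : maximalIdeal A ≤ P.comap (algebraMap A B)) :
    Module.FaithfullyFlat A (Localization.AtPrime P) := by
  have := isLocalHom_algebraMap_localization_atPrime P hP
  exact Module.FaithfullyFlat.of_flat_of_isLocalHom

/-- CONTRACTION: `I B_P ∩ A = I` for every ideal `I` of `A`. -/
theorem comap_map_localization_atPrime [Module.Flat A B]
    (hP : maximalIdeal A ≤ P.comap (algebraMap A B)) (I : Ideal A) :
    (I.map (algebraMap A (Localization.AtPrime P))).comap
      (algebraMap A (Localization.AtPrime P)) = I := by
  have := faithfullyFlat_localization_atPrime P hP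
  exact Ideal.comap_map_eq_self_of_faithfullyFlat I

/-- CONTRACTION, divisibility form: divisibility in `B_P` between elements of `A` descends. -/
theorem dvd_of_algebraMap_dvd_localization_atPrime [Module.Flat A B]
    (hP : maximalIdeal A ≤ P.comap (algebraMap A B)) {a r : A}
    (h : algebraMap A (Localization.AtPrime P) a ∣ algebraMap A (Localization.AtPrime P) r) :
    a ∣ r := by
  have h1 := comap_map_localization_atPrime P hP (Ideal.span {a})
  rw [← Ideal.mem_span_singleton, ← h1, Ideal.mem_comap, Ideal.map_span, Set.image_singleton,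
    Ideal.mem_span_singleton]
  exact h

/-- The structure map is injective. -/
theorem algebraMap_localization_atPrime_injective [Module.Flat A B]
    (hP : maximalIdeal A ≤ P.comap (algebraMap A B)) :
    Function.Injective (algebraMap A (Localization.AtPrime P)) := by
  have := faithfullyFlat_localization_atPrime P hP
  exact FaithfulSMul.algebraMap_injective A _

/-- RESIDUE FIELD UNCHANGED: if every element of `B` is congruent modulo `P` to an element of `A`
(and `P` lies over `m_A`), then every element of `B_P` is congruent modulo the maximal ideal to an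
element of `A`, i.e. `B_P = A + m_{B_P}`. -/
theorem exists_sub_mem_maximalIdeal_localization_atPrime
    (hP : maximalIdeal A ≤ P.comap (algebraMap A B))
    (hsurj : ∀ b : B, ∃ a : A, b - algebraMap A B a ∈ P) (s : Localization.AtPrime P) :
    ∃ a : A, s - algebraMap A (Localization.AtPrime P) a ∈
      maximalIdeal (Localization.AtPrime P) := by
  obtain ⟨b, t, rfl⟩ := IsLocalization.exists_mk'_eq P.primeCompl s
  obtain ⟨ab, hab⟩ := hsurj b
  obtain ⟨at', hat⟩ := hsurj t
  have hu : IsUnit at' := by
    by_contra hna
    have h1 : algebraMap A B at' ∈ P := hP (show at' ∈ maximalIdeal A from hna)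
    have h2 : (t : B) ∈ P := by
      have := P.add_mem hat h1
      simpa using this
    exact t.2 h2
  obtain ⟨u, rfl⟩ := hu
  have h4 : algebraMap A B (ab * ((u⁻¹ : Aˣ) : A)) * algebraMap A B (u : A) =
      algebraMap A B ab := by
    rw [← map_mul, mul_assoc, Units.inv_mul, mul_one]
  generalize ab * ((u⁻¹ : Aˣ) : A) = a at h4
  refine ⟨a, ?_⟩
  have hx : b - algebraMap A B a * t ∈ P := by
    have h3 : b - algebraMap A B a * t =
        (b - algebraMap A B ab) - algebraMap A B a * ((t : B) - algebraMap A B (u : A)) := by
      linear_combination (-1 : B) * h4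
    rw [h3]
    exact P.sub_mem hab (P.mul_mem_left _ hat)
  have hmk : IsLocalization.mk' (Localization.AtPrime P) b t -
      algebraMap A (Localization.AtPrime P) a =
      IsLocalization.mk' (Localization.AtPrime P) (b - algebraMap A B a * t) t := by
    rw [IsLocalization.eq_mk'_iff_mul_eq, sub_mul, IsLocalization.mk'_spec, map_sub, map_mul,
      ← IsScalarTower.algebraMap_apply A B (Localization.AtPrime P)]
  rw [hmk, IsLocalization.AtPrime.mk'_mem_maximal_iff (Localization.AtPrime P) P]
  exact hx

/-- `algebraMap r ∈ I B_P ↔ r ∈ I`. -/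
theorem algebraMap_mem_map_localization_atPrime_iff [Module.Flat A B]
    (hP : maximalIdeal A ≤ P.comap (algebraMap A B)) (I : Ideal A) (r : A) :
    algebraMap A (Localization.AtPrime P) r ∈ I.map (algebraMap A (Localization.AtPrime P)) ↔
      r ∈ I := by
  rw [← Ideal.mem_comap, comap_map_localization_atPrime P hP]

/-- `ι a ∣ ι r ↔ a ∣ r`. -/
theorem algebraMap_dvd_localization_atPrime_iff [Module.Flat A B]
    (hP : maximalIdeal A ≤ P.comap (algebraMap A B)) {a r : A} :
    algebraMap A (Localization.AtPrime P) a ∣ algebraMap A (Localization.AtPrime P) r ↔ a ∣ r :=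
  ⟨dvd_of_algebraMap_dvd_localization_atPrime P hP, fun h => map_dvd _ h⟩

/-- ORD COMPATIBILITY: `ι r ∈ (ι z, ι t ^ n) ↔ r ∈ (z, t ^ n)`. -/
theorem algebraMap_mem_span_pair_localization_atPrime_iff [Module.Flat A B]
    (hP : maximalIdeal A ≤ P.comap (algebraMap A B)) (z t r : A) (n : ℕ) :
    algebraMap A (Localization.AtPrime P) r ∈
        Ideal.span {algebraMap A (Localization.AtPrime P) z,
          algebraMap A (Localization.AtPrime P) t ^ n} ↔
      r ∈ Ideal.span {z, t ^ n} := by
  rw [← algebraMap_mem_map_localization_atPrime_iff P hP (Ideal.span {z, t ^ n}) r,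
    Ideal.map_span, Set.image_pair, map_pow]

end general

section adjoinRoot

variable {R : Type*} [CommRing R] [IsLocalRing R] {Q : R[X]} (P : Ideal (AdjoinRoot Q)) [P.IsPrime]

omit [IsLocalRing R] [P.IsPrime] in
/-- If `root - c ∈ P`, every element of `R[T]/(Q)` is congruent modulo `P` to an element of `R`
(namely `f(root) ≡ f(c)`). -/
theorem adjoinRoot_exists_sub_mem {c : R} (hroot : AdjoinRoot.root Q - AdjoinRoot.of Q c ∈ P)
    (b : AdjoinRoot Q) : ∃ a : R, b - algebraMap R (AdjoinRoot Q) a ∈ P := by
  obtain ⟨f, rfl⟩ := AdjoinRoot.mk_surjective b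
  refine ⟨f.eval c, ?_⟩
  obtain ⟨g, hg⟩ := X_sub_C_dvd_sub_C_eval (a := c) (p := f)
  have h1 : AdjoinRoot.mk Q f - algebraMap R (AdjoinRoot Q) (f.eval c) =
      (AdjoinRoot.root Q - AdjoinRoot.of Q c) * AdjoinRoot.mk Q g := by
    rw [AdjoinRoot.algebraMap_eq, ← AdjoinRoot.mk_C, ← map_sub, hg, map_mul, map_sub,
      AdjoinRoot.mk_X, AdjoinRoot.mk_C]
  rw [h1]
  exact P.mul_mem_right _ hroot

variable (hQ : Q.Monic) (hP : maximalIdeal R ≤ P.comap (algebraMap R (AdjoinRoot Q)))
include hQ hP

/-- `(R[T]/(Q))_P` is faithfully flat over the local ring `R` (`Q` monic, `P` over `m_R`). -/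
theorem adjoinRoot_faithfullyFlat : Module.FaithfullyFlat R (Localization.AtPrime P) := by
  have := hQ.free_adjoinRoot
  exact faithfullyFlat_localization_atPrime P hP

/-- CONTRACTION for `R* = (R[T]/(Q))_P`. -/
theorem adjoinRoot_comap_map (I : Ideal R) :
    (I.map (algebraMap R (Localization.AtPrime P))).comap
      (algebraMap R (Localization.AtPrime P)) = I := by
  have := hQ.free_adjoinRoot
  exact comap_map_localization_atPrime P hP I

theorem adjoinRoot_algebraMap_injective :
    Function.Injective (algebraMap R (Localization.AtPrime P)) := by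
  have := hQ.free_adjoinRoot
  exact algebraMap_localization_atPrime_injective P hP

theorem adjoinRoot_algebraMap_dvd_iff {a r : R} :
    algebraMap R (Localization.AtPrime P) a ∣ algebraMap R (Localization.AtPrime P) r ↔ a ∣ r := by
  have := hQ.free_adjoinRoot
  exact algebraMap_dvd_localization_atPrime_iff P hP

theorem adjoinRoot_algebraMap_mem_span_pair_iff (z t r : R) (n : ℕ) :
    algebraMap R (Localization.AtPrime P) r ∈
        Ideal.span {algebraMap R (Localization.AtPrime P) z,
          algebraMap R (Localization.AtPrime P) t ^ n} ↔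
      r ∈ Ideal.span {z, t ^ n} := by
  have := hQ.free_adjoinRoot
  exact algebraMap_mem_span_pair_localization_atPrime_iff P hP z t r n

omit hQ in
/-- RESIDUE FIELD UNCHANGED for `R* = (R[T]/(Q))_P` when `root - c ∈ P`. -/
theorem adjoinRoot_exists_sub_mem_maximalIdeal {c : R}
    (hroot : AdjoinRoot.root Q - AdjoinRoot.of Q c ∈ P) (s : Localization.AtPrime P) :
    ∃ a : R, s - algebraMap R (Localization.AtPrime P) a ∈
      maximalIdeal (Localization.AtPrime P) :=
  exists_sub_mem_maximalIdeal_localization_atPrime P hP (adjoinRoot_exists_sub_mem P hroot) s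

end adjoinRoot

end Fermat.Agent.S40x.R2.NodeCover
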