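/-
C3-ET support (P-S44/S40): simple roots of the minimal polynomial of `θ0 = -∑ θ_δ`,
where `σ θ_δ = ζ_δ θ_δ + 1` with `ζ_δ` p-th roots of unity fixed by `σ`, over a local ring `R`
of residue characteristic `p` with algebraically closed residue field.

Mathlib only.  The proof works in a valuation subring `V` of `E` dominating `R`:
`ζ_δ ≡ 1 mod m_V`, hence `σ^i θ0 ≡ θ0 + i mod m_V`.
-/
import Mathlib

namespace Fermat.Agent.S40x.R2.NodeCover

open Polynomial IsLocalRing

section iterate
variable {R E : Type*} [CommRing R] [Field E] [Algebra R E]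

/-- Iterates of an affine-twisted automorphism: if `σ ζ = ζ` and `σ θ = ζ θ + 1`, then
`σ^i θ = ζ^i θ + (1 + ζ + ... + ζ^(i-1))`. -/
theorem iterate_affine (σ : E ≃ₐ[R] E) (θ ζ : E) (hsz : σ ζ = ζ) (hs : σ θ = ζ * θ + 1) (i : ℕ) :
    (σ ^ i) θ = ζ ^ i * θ + ∑ j ∈ Finset.range i, ζ ^ j := by
  induction i with
  | zero => simp
  | succ i ih =>
    rw [pow_succ', AlgEquiv.mul_apply, ih, map_add, map_mul, map_pow, map_sum, hsz, hs]
    simp only [map_pow, hsz]
    rw [Finset.sum_range_succ]; ring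

end iterate

/-- Main structural statement.  `R` local with `p ∈ m_R` and algebraically closed residue field,
`σ` an `R`-automorphism of the field `E`, `θ_δ` (`δ ∈ ι`, `|ι| = p - 1`) integral over `R` with
`σ θ_δ = ζ_δ θ_δ + 1` for `σ`-fixed `p`-th roots of unity `ζ_δ`; `θ0 = -∑ θ_δ`.
If `deg (minpoly R θ0) ≤ p`, then the minimal polynomial has degree exactly `p`, its roots in `E`
are the `p` distinct conjugates `σ^i θ0`, and modulo `m_R` it is `∏_{i<p} (X - (c + i))` for
some `c : R`. -/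
theorem conjugates_structure {R E : Type*} [CommRing R] [IsLocalRing R]
    [Field E] [Algebra R E] (p : ℕ) [Fact p.Prime]
    (hpm : (p : R) ∈ maximalIdeal R) [IsAlgClosed (ResidueField R)] (σ : E ≃ₐ[R] E)
    {ι : Type*} [Fintype ι] (hcard : Fintype.card ι + 1 = p) (θ ζ : ι → E)
    (hint : ∀ d, IsIntegral R (θ d)) (hz : ∀ d, ζ d ^ p = 1)
    (hsz : ∀ d, σ (ζ d) = ζ d) (hs : ∀ d, σ (θ d) = ζ d * θ d + 1) (θ0 : E)
    (h0 : θ0 = - ∑ d, θ d) (hdeg : (minpoly R θ0).natDegree ≤ p) :
    (minpoly R θ0).natDegree = p ∧ (∀ i, 0 < i → i < p → (σ ^ i) θ0 ≠ θ0) ∧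
    (minpoly R θ0).map (algebraMap R E) = ∏ i : Fin p, (X - C ((σ ^ (i : ℕ)) θ0)) ∧
    ∃ c : R, (minpoly R θ0).map (residue R) =
      ∏ i : Fin p, (X - C (residue R (c + ((i : ℕ) : R)))) := by
  classical
  have hp : p.Prime := Fact.out
  obtain ⟨V, hV, hloc⟩ := IsLocalRing.exists_factor_valuationRing (algebraMap R E)
  let f : R →+* V := (algebraMap R E).codRestrict V.toSubring hV
  have : IsLocalHom f := hloc
  have hfE : V.subtype.comp f = algebraMap R E := rfl
  let K := ResidueField V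
  let ρ : R →+* K := (residue V).comp f
  have hρ : ∀ a, ρ a = 0 ↔ a ∈ maximalIdeal R := by
    intro a
    have h1 : ρ a = 0 ↔ ¬ IsUnit (f a) := by
      change residue V (f a) = 0 ↔ _
      rw [residue_eq_zero_iff, mem_maximalIdeal, mem_nonunits_iff]
    rw [h1, mem_maximalIdeal, mem_nonunits_iff]
    exact ⟨fun h hu => h (hu.map f), fun h hu => h (isUnit_of_map_unit f a hu)⟩
  have hpK : (p : K) = 0 := by
    have := (hρ (p : R)).2 hpm
    simpa using this
  have : CharP K p := (CharP.charP_iff_prime_eq_zero hp).2 hpK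
  -- integral elements lie in `V`
  have hmemV : ∀ x : E, IsIntegral R x → x ∈ V := by
    intro x hx
    obtain ⟨P, hP, hPx⟩ := hx
    have : IsIntegral V x := ⟨P.map f, hP.map f, by rw [eval₂_map]; exact hPx⟩
    obtain ⟨y, rfl⟩ := IsIntegrallyClosedIn.isIntegral_iff.mp this
    exact y.2
  have hζint : ∀ d, IsIntegral R (ζ d) := fun d =>
    IsIntegral.of_pow hp.pos (by rw [hz]; exact isIntegral_one)
  let θ' : ι → V := fun d => ⟨θ d, hmemV _ (hint d)⟩
  let ζ' : ι → V := fun d => ⟨ζ d, hmemV _ (hζint d)⟩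
  have hζ1 : ∀ d, residue V (ζ' d) = 1 := by
    intro d
    have h1 : (residue V (ζ' d) - 1) ^ p = 0 := by
      rw [sub_pow_char, one_pow, ← map_pow, (Subtype.ext (hz d) : ζ' d ^ p = 1), map_one,
        sub_self]
    exact sub_eq_zero.mp (pow_eq_zero_iff hp.ne_zero |>.mp h1)
  let T : ℕ → V := fun i => - ∑ d, (ζ' d ^ i * θ' d + ∑ j ∈ Finset.range i, ζ' d ^ j)
  have hT : ∀ i, V.subtype (T i) = (σ ^ i) θ0 := by
    intro i
    simp only [T, map_neg, map_sum, map_add, map_mul, map_pow, h0]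
    refine congrArg _ (Finset.sum_congr rfl fun d _ => ?_)
    rw [iterate_affine σ (θ d) (ζ d) (hsz d) (hs d) i]
    rfl
  have hcK : (Fintype.card ι : K) = -1 := by
    have : ((Fintype.card ι + 1 : ℕ) : K) = 0 := by rw [hcard]; exact hpK
    push_cast at this
    exact eq_neg_of_add_eq_zero_left this
  have hTres' : ∀ i : ℕ, residue V (T i) =
      -(∑ d, residue V (θ' d)) - (Fintype.card ι : K) * (i : K) := by
    intro i
    have hd : ∀ d, residue V (ζ' d ^ i * θ' d + ∑ j ∈ Finset.range i, ζ' d ^ j) =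
        residue V (θ' d) + (i : K) := by
      intro d
      rw [map_add, map_mul, map_pow, map_sum, hζ1, one_pow, one_mul]
      simp only [map_pow, hζ1, one_pow, Finset.sum_const, Finset.card_range, nsmul_eq_mul,
        mul_one]
    rw [show T i = - ∑ d, (ζ' d ^ i * θ' d + ∑ j ∈ Finset.range i, ζ' d ^ j) from rfl,
      map_neg, map_sum]
    simp only [hd, Finset.sum_add_distrib, Finset.sum_const, Finset.card_univ, nsmul_eq_mul]
    ring
  have hTres : ∀ i : ℕ, residue V (T i) = residue V (T 0) + (i : K) := by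
    intro i
    rw [hTres' i, hTres' 0, hcK]
    push_cast
    ring
  have hTinj : ∀ i j : ℕ, i < p → j < p → T i = T j → i = j := by
    intro i j hi hj hij
    have h1 : (i : K) = (j : K) := by
      have := congrArg (residue V) hij
      rw [hTres i, hTres j] at this
      exact add_left_cancel this
    have h2 := (CharP.natCast_eq_natCast K p).1 h1
    exact Nat.ModEq.eq_of_lt_of_lt h2 hi hj
  have hsub_inj : Function.Injective V.subtype := Subtype.val_injective
  -- (ii) the conjugates are distinct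
  have hii : ∀ i, 0 < i → i < p → (σ ^ i) θ0 ≠ θ0 := by
    intro i hi0 hip h
    have h1 : T i = T 0 := hsub_inj (by rw [hT i, hT 0, h]; simp)
    exact hi0.ne' (hTinj i 0 hip hp.pos h1)
  -- `θ0` is integral, all conjugates are roots of its minimal polynomial
  have hθ0int : IsIntegral R θ0 := by
    rw [h0]; exact (IsIntegral.sum _ fun d _ => hint d).neg
  set Q := minpoly R θ0 with hQ
  have hQm : Q.Monic := minpoly.monic hθ0int
  have hroot : ∀ i : ℕ, (X - C ((σ ^ i) θ0)) ∣ Q.map (algebraMap R E) := by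
    intro i
    rw [dvd_iff_isRoot, IsRoot.def, eval_map_algebraMap]
    have := aeval_algHom_apply ((σ ^ i : E ≃ₐ[R] E) : E →ₐ[R] E) θ0 Q
    rw [AlgEquiv.coe_toAlgHom] at this
    rw [this, hQ, minpoly.aeval, map_zero]
  have hsinj : Function.Injective fun i : Fin p => (σ ^ (i : ℕ)) θ0 := by
    intro i j hij
    have h1 : T i = T j := hsub_inj (by rw [hT, hT]; exact hij)
    exact Fin.ext (hTinj i j i.2 j.2 h1)
  have hdvd : (∏ i : Fin p, (X - C ((σ ^ (i : ℕ)) θ0))) ∣ Q.map (algebraMap R E) :=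
    Fintype.prod_dvd_of_coprime (pairwise_coprime_X_sub_C hsinj) fun i => hroot i
  have hprodm : (∏ i : Fin p, (X - C ((σ ^ (i : ℕ)) θ0))).Monic := monic_prod_X_sub_C _ _
  have hprodd : (∏ i : Fin p, (X - C ((σ ^ (i : ℕ)) θ0))).natDegree = p := by
    rw [natDegree_finsetProd_X_sub_C_eq_card, Finset.card_univ, Fintype.card_fin]
  have hfac : Q.map (algebraMap R E) = ∏ i : Fin p, (X - C ((σ ^ (i : ℕ)) θ0)) :=
    eq_of_monic_of_dvd_of_natDegree_le hprodm (hQm.map _) hdvd
      (by rw [hQm.natDegree_map, hprodd]; exact hdeg)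
  have hnat : Q.natDegree = p := by
    rw [← hQm.natDegree_map (algebraMap R E), hfac, hprodd]
  refine ⟨hnat, hii, hfac, ?_⟩
  -- factorisation over `V`
  have hfacV : Q.map f = ∏ i : Fin p, (X - C (T i)) := by
    apply map_injective V.subtype hsub_inj
    rw [map_map, hfE, hfac, Polynomial.map_prod]
    refine Finset.prod_congr rfl fun i _ => ?_
    rw [Polynomial.map_sub, map_X, map_C, hT]
  -- the residue of `θ0` comes from `R`
  let φ : ResidueField R →+* K := ResidueField.map f
  have hφ : φ.comp (residue R) = ρ := ResidueField.map_comp_residue f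
  let _ : Algebra (ResidueField R) K := φ.toAlgebra
  have hx : IsIntegral (ResidueField R) (residue V (T 0)) := by
    refine ⟨Q.map (residue R), hQm.map _, ?_⟩
    rw [eval₂_map, RingHom.algebraMap_toAlgebra, hφ]
    change eval₂ ((residue V).comp f) (residue V (T 0)) Q = 0
    rw [← hom_eval₂, ← eval_map, hfacV, eval_prod,
      Finset.prod_eq_zero (Finset.mem_univ (⟨0, hp.pos⟩ : Fin p)) (by simp), map_zero]
  obtain ⟨cbar, hcbar⟩ := minpoly.mem_range_of_degree_eq_one _ _
    (IsAlgClosed.degree_eq_one_of_irreducible _ (minpoly.irreducible hx))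
  obtain ⟨c, rfl⟩ := residue_surjective cbar
  have hc : ρ c = residue V (T 0) := by
    rw [← hφ]; exact hcbar
  refine ⟨c, ?_⟩
  apply map_injective φ φ.injective
  rw [map_map, hφ, show ρ = (residue V).comp f from rfl, ← map_map, hfacV, Polynomial.map_prod,
    Polynomial.map_prod]
  refine Finset.prod_congr rfl fun i _ => ?_
  have hρφ : ∀ a, φ (residue R a) = ρ a := fun a => by rw [← hφ]; rfl
  have hTi : residue V (T i) = ρ (c + ((i : ℕ) : R)) := by
    rw [hTres, map_add, hc, map_natCast]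
  rw [Polynomial.map_sub, Polynomial.map_sub, map_X, map_X, map_C, map_C, hρφ, hTi]

section ModFactor

variable {R : Type*} [CommRing R] [IsLocalRing R] (p : ℕ) [Fact p.Prime]

/-- If `p ∈ m_R`, the residues of `c, c+1, ..., c+(p-1)` are pairwise distinct. -/
theorem residue_add_natCast_injective (hpm : (p : R) ∈ maximalIdeal R) (c : R) :
    Function.Injective fun i : Fin p => residue R (c + ((i : ℕ) : R)) := by
  have hp : p.Prime := Fact.out
  have hpk : (p : ResidueField R) = 0 := by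
    have := (residue_eq_zero_iff (p : R)).2 hpm
    simpa using this
  have : CharP (ResidueField R) p := (CharP.charP_iff_prime_eq_zero hp).2 hpk
  intro i j hij
  simp only [map_add, map_natCast, add_right_inj] at hij
  have := (CharP.natCast_eq_natCast (ResidueField R) p).1 hij
  exact Fin.ext (Nat.ModEq.eq_of_lt_of_lt this i.2 j.2)

omit [Fact p.Prime] in
/-- If `Q ≡ ∏_{i<p} (X - (c+i)) mod m_R`, the roots of `Q` modulo `m_R` are exactly the classes of
`c + i`. -/
theorem eval_mem_maximalIdeal_iff (Q : R[X]) (c : R)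
    (hQ : Q.map (residue R) = ∏ i : Fin p, (X - C (residue R (c + ((i : ℕ) : R))))) (c' : R) :
    Q.eval c' ∈ maximalIdeal R ↔ ∃ i : Fin p, c' - (c + ((i : ℕ) : R)) ∈ maximalIdeal R := by
  rw [← residue_eq_zero_iff, ← eval₂_at_apply, ← eval_map, hQ, eval_prod,
    Finset.prod_eq_zero_iff]
  simp only [Finset.mem_univ, true_and, eval_sub, eval_X, eval_C, ← map_sub, residue_eq_zero_iff]

/-- If `Q ≡ ∏_{i<p} (X - (c+i)) mod m_R` and `p ∈ m_R`, every root of `Q` modulo `m_R` is
simple. -/
theorem isUnit_derivative_eval_of_map_residue_eq (hpm : (p : R) ∈ maximalIdeal R) (Q : R[X])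
    (c : R) (hQ : Q.map (residue R) = ∏ i : Fin p, (X - C (residue R (c + ((i : ℕ) : R)))))
    (c' : R) (hc' : Q.eval c' ∈ maximalIdeal R) : IsUnit (Q.derivative.eval c') := by
  have hsep : (Q.map (residue R)).Separable := by
    rw [hQ]; exact separable_prod_X_sub_C_iff.2 (residue_add_natCast_injective p hpm c)
  have h0 : eval (residue R c') (Q.map (residue R)) = 0 := by
    rw [eval_map, eval₂_at_apply, (residue_eq_zero_iff _).2 hc']
  have h1 := hsep.eval₂_derivative_ne_zero (RingHom.id _) (x := residue R c')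
    (by rwa [eval₂_id])
  rw [eval₂_id, derivative_map, eval_map, eval₂_at_apply] at h1
  exact (residue_ne_zero_iff_isUnit _).1 h1

end ModFactor

set_option linter.unusedVariables false in
/-- The literal requested by C3-ET (note 2647, TODO (3)): degree `p`, distinct conjugates, and a
simple root `c` modulo `m_R`.  (`hz1` and the instances `IsDomain`, `IsIntegrallyClosed`,
`FaithfulSMul` are not used; see `conjugates_structure` for the sharp form.) -/
theorem exists_simple_root_of_conjugates {R E : Type*} [CommRing R] [IsDomain R] [IsLocalRing R]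
    [IsIntegrallyClosed R] [Field E] [Algebra R E] [FaithfulSMul R E] (p : ℕ) [Fact p.Prime]
    (hpm : (p : R) ∈ maximalIdeal R) [IsAlgClosed (ResidueField R)] (σ : E ≃ₐ[R] E)
    {ι : Type*} [Fintype ι] (hcard : Fintype.card ι + 1 = p) (θ ζ : ι → E)
    (hint : ∀ d, IsIntegral R (θ d)) (hz : ∀ d, ζ d ^ p = 1) (hz1 : ∀ d, ζ d ≠ 1)
    (hsz : ∀ d, σ (ζ d) = ζ d) (hs : ∀ d, σ (θ d) = ζ d * θ d + 1) (θ0 : E)
    (h0 : θ0 = - ∑ d, θ d) (hdeg : (minpoly R θ0).natDegree ≤ p) :
    (minpoly R θ0).natDegree = p ∧ (∀ i, 0 < i → i < p → (σ ^ i) θ0 ≠ θ0) ∧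
    ∃ c : R, (minpoly R θ0).eval c ∈ maximalIdeal R ∧
      IsUnit ((minpoly R θ0).derivative.eval c) := by
  obtain ⟨h1, h2, -, c, hc⟩ :=
    conjugates_structure p hpm σ hcard θ ζ hint hz hsz hs θ0 h0 hdeg
  have hp : p.Prime := Fact.out
  have hcm : (minpoly R θ0).eval c ∈ maximalIdeal R :=
    (eval_mem_maximalIdeal_iff p _ c hc c).2 ⟨⟨0, hp.pos⟩, by simp⟩
  exact ⟨h1, h2, c, hcm, isUnit_derivative_eval_of_map_residue_eq p hpm _ c hc c hcm⟩

/-- Same hypotheses (minus the unused ones): ALL roots of the minimal polynomial modulo `m_R`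
are simple, and they are the classes of `c, c+1, ..., c+(p-1)`. -/
theorem all_roots_simple_of_conjugates {R E : Type*} [CommRing R] [IsLocalRing R]
    [Field E] [Algebra R E] (p : ℕ) [Fact p.Prime]
    (hpm : (p : R) ∈ maximalIdeal R) [IsAlgClosed (ResidueField R)] (σ : E ≃ₐ[R] E)
    {ι : Type*} [Fintype ι] (hcard : Fintype.card ι + 1 = p) (θ ζ : ι → E)
    (hint : ∀ d, IsIntegral R (θ d)) (hz : ∀ d, ζ d ^ p = 1)
    (hsz : ∀ d, σ (ζ d) = ζ d) (hs : ∀ d, σ (θ d) = ζ d * θ d + 1) (θ0 : E)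
    (h0 : θ0 = - ∑ d, θ d) (hdeg : (minpoly R θ0).natDegree ≤ p) :
    ∃ c : R, (∀ c' : R, (minpoly R θ0).eval c' ∈ maximalIdeal R ↔
        ∃ i : Fin p, c' - (c + ((i : ℕ) : R)) ∈ maximalIdeal R) ∧
      ∀ c' : R, (minpoly R θ0).eval c' ∈ maximalIdeal R →
        IsUnit ((minpoly R θ0).derivative.eval c') := by
  obtain ⟨-, -, -, c, hc⟩ :=
    conjugates_structure p hpm σ hcard θ ζ hint hz hsz hs θ0 h0 hdeg
  exact ⟨c, eval_mem_maximalIdeal_iff p _ c hc,
    isUnit_derivative_eval_of_map_residue_eq p hpm _ c hc⟩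

end Fermat.Agent.S40x.R2.NodeCover
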